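import Mathlib

/-! # S26 : tensor products of domains over an algebraically closed field are domains. -/

set_option autoImplicit false

namespace Fermat.Agent.S26

open TensorProduct

namespace TensorDomain

/-- Nullstellensatz: a nonzero element of a finitely generated domain over an algebraically closed
field is nonzero at some `K`-point. -/
theorem exists_algHom_ne_zero (K A : Type*) [Field K] [IsAlgClosed K] [CommRing A] [IsDomain A]
    [Algebra K A] [Algebra.FiniteType K A] (c : A) (hc : c ≠ 0) :
    ∃ φ : A →ₐ[K] K, φ c ≠ 0 := by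
  have hJ : IsJacobsonRing A := isJacobsonRing_of_finiteType (A := K)
  have h1 : (⊥ : Ideal A).jacobson = ⊥ := by
    rw [← Ideal.radical_eq_jacobson]
    exact (Ideal.isPrime_bot (α := A)).isRadical.radical
  have h2 : c ∉ (⊥ : Ideal A).jacobson := by
    rw [h1]
    simpa using hc
  rw [Ideal.jacobson, Ideal.mem_sInf] at h2
  push Not at h2
  obtain ⟨m, ⟨-, hm⟩, hcm⟩ := h2
  let _ : Field (A ⧸ m) := Ideal.Quotient.field m
  have hft : Algebra.FiniteType K (A ⧸ m) :=
    Algebra.FiniteType.of_surjective (Ideal.Quotient.mkₐ K m) (Ideal.Quotient.mkₐ_surjective K m)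
  have hfin : Module.Finite K (A ⧸ m) := finite_of_finite_type_of_isJacobsonRing K (A ⧸ m)
  have hint : Algebra.IsIntegral K (A ⧸ m) := Algebra.IsIntegral.of_finite K (A ⧸ m)
  have hbij : Function.Bijective (algebraMap K (A ⧸ m)) :=
    IsAlgClosed.algebraMap_bijective_of_isIntegral
  let e : K ≃ₐ[K] (A ⧸ m) := AlgEquiv.ofBijective (Algebra.ofId K (A ⧸ m)) hbij
  refine ⟨(e.symm : (A ⧸ m) →ₐ[K] K).comp (Ideal.Quotient.mkₐ K m), ?_⟩
  intro h
  apply hcm
  rw [← Ideal.Quotient.eq_zero_iff_mem]
  have h3 : e.symm (Ideal.Quotient.mk m c) = 0 := h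
  simpa using h3

end TensorDomain

open TensorDomain in
/-- TASK S26/TensorDomain.  Reduce to finitely generated subalgebras; write the two factors as
`∑ aᵢ ⊗ bᵢ`, `∑ a'ⱼ ⊗ b'ⱼ` with `bᵢ`, `b'ⱼ` linearly independent; for every maximal ideal `𝔪` of the f.g.
`K`-algebra generated by the `aᵢ, a'ⱼ` the residue field is `K` (Nullstellensatz), so one of the two
specialised factors vanishes in the domain `B`, i.e. `a₁ a'₁ ∈ 𝔪`; Jacobson ⇒ `a₁ a'₁ = 0`. -/
instance isDomain_tensorProduct (K A B : Type*) [Field K] [IsAlgClosed K] [CommRing A] [IsDomain A]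
    [Algebra K A] [CommRing B] [IsDomain B] [Algebra K B] : IsDomain (A ⊗[K] B) := by
  classical
  have hnt : Nontrivial (A ⊗[K] B) := inferInstance
  have hnzd : NoZeroDivisors (A ⊗[K] B) := by
    refine ⟨fun {x y} hxy => ?_⟩
    by_contra hcon
    push Not at hcon
    obtain ⟨hx, hy⟩ := hcon
    -- a basis of `B` and the induced `A`-basis of `A ⊗ B`
    let β := Module.Basis.ofVectorSpace K B
    let bA := Algebra.TensorProduct.basis A β
    obtain ⟨i₀, hi₀⟩ : ∃ i, bA.repr x i ≠ 0 := by
      by_contra h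
      push Not at h
      exact hx (bA.repr.map_eq_zero_iff.mp (Finsupp.ext h))
    obtain ⟨j₀, hj₀⟩ : ∃ j, bA.repr y j ≠ 0 := by
      by_contra h
      push Not at h
      exact hy (bA.repr.map_eq_zero_iff.mp (Finsupp.ext h))
    -- the finitely generated subalgebra
    let T : Finset A := (bA.repr x).support.image (bA.repr x) ∪ (bA.repr y).support.image (bA.repr y)
    let A' : Subalgebra K A := Algebra.adjoin K (T : Set A)
    have hft : Algebra.FiniteType K A' :=
      (Subalgebra.fg_iff_finiteType A').mp ⟨T, rfl⟩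
    have hxmem : ∀ i, bA.repr x i ∈ A' := by
      intro i
      by_cases h : bA.repr x i = 0
      · rw [h]; exact A'.zero_mem
      · apply Algebra.subset_adjoin
        simp only [T, Finset.coe_union, Finset.coe_image, Set.mem_union, Set.mem_image]
        exact Or.inl ⟨i, Finsupp.mem_support_iff.mpr h, rfl⟩
    have hymem : ∀ i, bA.repr y i ∈ A' := by
      intro i
      by_cases h : bA.repr y i = 0
      · rw [h]; exact A'.zero_mem
      · apply Algebra.subset_adjoin
        simp only [T, Finset.coe_union, Finset.coe_image, Set.mem_union, Set.mem_image]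
        exact Or.inr ⟨i, Finsupp.mem_support_iff.mpr h, rfl⟩
    -- lifts of `x`, `y` to `A' ⊗ B`
    let x' : A' ⊗[K] B := ∑ i ∈ (bA.repr x).support, (⟨bA.repr x i, hxmem i⟩ : A') ⊗ₜ[K] β i
    let y' : A' ⊗[K] B := ∑ i ∈ (bA.repr y).support, (⟨bA.repr y i, hymem i⟩ : A') ⊗ₜ[K] β i
    let ι : A' ⊗[K] B →ₐ[K] A ⊗[K] B := Algebra.TensorProduct.map A'.val (AlgHom.id K B)
    have hιinj : Function.Injective ι := by
      have := Module.Flat.rTensor_preserves_injective_linearMap (M := B) A'.val.toLinearMap
        Subtype.val_injective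
      exact this
    have hexp : ∀ z : A ⊗[K] B, z = ∑ i ∈ (bA.repr z).support, (bA.repr z i) ⊗ₜ[K] β i := by
      intro z
      conv_lhs => rw [← bA.linearCombination_repr z, Finsupp.linearCombination_apply, Finsupp.sum]
      refine Finset.sum_congr rfl fun i _ => ?_
      simp [bA, TensorProduct.smul_tmul']
    have hιx : ι x' = x := by
      simp only [x', map_sum, ι, Algebra.TensorProduct.map_tmul]
      exact (hexp x).symm
    have hιy : ι y' = y := by
      simp only [y', map_sum, ι, Algebra.TensorProduct.map_tmul]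
      exact (hexp y).symm
    have hxy' : x' * y' = 0 := by
      apply hιinj
      rw [map_mul, hιx, hιy, hxy, map_zero]
    -- the point
    let c : A' := ⟨bA.repr x i₀, hxmem i₀⟩ * ⟨bA.repr y j₀, hymem j₀⟩
    have hc : c ≠ 0 := by
      apply mul_ne_zero
      · intro h; exact hi₀ (congrArg Subtype.val h)
      · intro h; exact hj₀ (congrArg Subtype.val h)
    obtain ⟨φ, hφ⟩ := exists_algHom_ne_zero K A' c hc
    let ψ : A' ⊗[K] B →ₐ[K] B :=
      Algebra.TensorProduct.lift ((Algebra.ofId K B).comp φ) (AlgHom.id K B)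
        (fun _ _ => Commute.all _ _)
    have hψ : ∀ (a : A') (b : B), ψ (a ⊗ₜ b) = φ a • b := by
      intro a b
      simp [ψ, Algebra.smul_def, Algebra.ofId_apply]
    have hzero : ∀ (z : A ⊗[K] B) (hz : ∀ i, bA.repr z i ∈ A'),
        ψ (∑ i ∈ (bA.repr z).support, (⟨bA.repr z i, hz i⟩ : A') ⊗ₜ[K] β i) = 0 →
        ∀ i, φ ⟨bA.repr z i, hz i⟩ = 0 := by
      intro z hz h i
      simp only [map_sum, hψ] at h
      by_cases hi : i ∈ (bA.repr z).support
      · exact linearIndependent_iff'.mp β.linearIndependent _ _ h i hi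
      · have : bA.repr z i = 0 := Finsupp.notMem_support_iff.mp hi
        have h2 : (⟨bA.repr z i, hz i⟩ : A') = 0 := Subtype.ext this
        rw [h2, map_zero]
    have hprod : ψ x' * ψ y' = 0 := by rw [← map_mul, hxy', map_zero]
    apply hφ
    simp only [c, map_mul]
    rcases mul_eq_zero.mp hprod with h | h
    · rw [hzero x hxmem h i₀, zero_mul]
    · rw [hzero y hymem h j₀, mul_zero]
  exact { }

end Fermat.Agent.S26
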