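import Mathlib

/-! # S26 / M5 (abstract part) : two-dimensional local rings fibred over a DVR.

`B` a noetherian local domain, `π ∈ B` a prime element, `red : B → A` a surjection onto a DVR with kernel `(π)`.
Then
* `TwoDim.isLocalHom_red`
* `TwoDim.exists_eq_span_singleton` (ELEMENTARY LEMMA): every nonzero prime ideal `𝔮 ∌ π` is principal;
* `TwoDim.exists_prime_ideal`: a non-unit `b`, `π ∤ b`, lies in a prime ideal `𝔮 ∌ π`;
* `TwoDim.uniqueFactorizationMonoid`: `B` is a UFD. -/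

set_option autoImplicit false
set_option linter.unusedSectionVars false

namespace Fermat.Agent.S26.TwoDim

variable {B A : Type*} [CommRing B] [IsDomain B] [IsLocalRing B]
  [CommRing A] [IsDomain A] [IsDiscreteValuationRing A]
  (red : B →+* A) (hred : Function.Surjective red) (π : B) (hker : RingHom.ker red = Ideal.span {π})

include hker in
theorem red_eq_zero_iff (b : B) : red b = 0 ↔ π ∣ b := by
  rw [← RingHom.mem_ker, hker, Ideal.mem_span_singleton]

include hred in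
theorem isUnit_of_isUnit_red {b : B} (hb : IsUnit (red b)) : IsUnit b := by
  by_contra hnu
  obtain ⟨a, ha⟩ := hb.exists_right_inv
  obtain ⟨c, rfl⟩ := hred a
  have h1 : b * c - 1 ∈ RingHom.ker red := by
    rw [RingHom.mem_ker, map_sub, map_mul, ha, map_one, sub_self]
  have hkerne : RingHom.ker red ≠ ⊤ := RingHom.ker_ne_top red
  have h2 : b * c - 1 ∈ IsLocalRing.maximalIdeal B := IsLocalRing.le_maximalIdeal hkerne h1
  have h3 : b * c ∈ IsLocalRing.maximalIdeal B :=
    Ideal.mul_mem_right _ _ ((IsLocalRing.mem_maximalIdeal b).mpr hnu)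
  have h4 : (1 : B) ∈ IsLocalRing.maximalIdeal B := by
    have := Ideal.sub_mem _ h3 h2
    simp at this
  exact (Ideal.ne_top_iff_one _).mp (IsLocalRing.maximalIdeal.isMaximal B).ne_top h4

include hred in
theorem isLocalHom_red : IsLocalHom red := ⟨fun _ h => isUnit_of_isUnit_red red hred h⟩

include hker in
theorem not_isUnit_pi : ¬ IsUnit π := by
  intro h
  have : RingHom.ker red = ⊤ := by rw [hker]; exact Ideal.span_singleton_eq_top.mpr h
  exact RingHom.ker_ne_top red this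

include hker in
theorem pi_mem_maximalIdeal : π ∈ IsLocalRing.maximalIdeal B :=
  (IsLocalRing.mem_maximalIdeal π).mpr (not_isUnit_pi red π hker)

/-- a nonzero ideal stable under division by `π` contains an element not divisible by `π`. -/
theorem exists_mem_not_dvd [IsNoetherianRing B] (hπ : Prime π) (q : Ideal B) [q.IsPrime]
    (hπq : π ∉ q) (hq : q ≠ ⊥) : ∃ b ∈ q, ¬ π ∣ b := by
  obtain ⟨b, hb, hb0⟩ := Submodule.exists_mem_ne_zero_of_ne_bot hq
  obtain ⟨n, c, hc, rfl⟩ := WfDvdMonoid.max_power_factor hb0 hπ.irreducible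
  refine ⟨c, ?_, hc⟩
  rcases (Ideal.IsPrime.mem_or_mem ‹q.IsPrime› hb) with h | h
  · exact absurd (Ideal.IsPrime.mem_of_pow_mem ‹q.IsPrime› n h) hπq
  · exact h

include hred hker in
/-- ELEMENTARY LEMMA: every nonzero prime ideal not containing `π` is principal. -/
theorem exists_eq_span_singleton [IsNoetherianRing B] (hπ : Prime π) (q : Ideal B) [hqp : q.IsPrime]
    (hπq : π ∉ q) (hq : q ≠ ⊥) : ∃ h : B, q = Ideal.span {h} := by
  classical
  obtain ⟨b₀, hb₀, hb₀π⟩ := exists_mem_not_dvd π hπ q hπq hq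
  -- choose `h ∈ q` with `addVal (red h)` minimal
  let S : Set ℕ∞ := (fun b => IsDiscreteValuationRing.addVal A (red b)) '' (q : Set B)
  have hS : S.Nonempty := ⟨_, b₀, hb₀, rfl⟩
  obtain ⟨h, hhq, hhmin⟩ : ∃ h ∈ q, ∀ b ∈ q,
      IsDiscreteValuationRing.addVal A (red h) ≤ IsDiscreteValuationRing.addVal A (red b) := by
    have hwf : WellFounded ((· < ·) : ℕ∞ → ℕ∞ → Prop) := wellFounded_lt
    obtain ⟨h, hh, hv⟩ := hwf.min_mem S hS
    refine ⟨h, hh, fun b hb => ?_⟩
    have hv' : IsDiscreteValuationRing.addVal A (red h) = hwf.min S hS := hv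
    rw [hv']
    exact not_lt.mp (hwf.not_lt_min S ⟨b, hb, rfl⟩)
  refine ⟨h, le_antisymm ?_ ((Ideal.span_singleton_le_iff_mem _).mpr hhq)⟩
  refine Submodule.le_of_le_smul_of_le_jacobson_bot (I := Ideal.span {π})
    (IsNoetherian.noetherian q) ?_ ?_
  · rw [IsLocalRing.jacobson_eq_maximalIdeal ⊥ bot_ne_top, Ideal.span_singleton_le_iff_mem]
    exact pi_mem_maximalIdeal red π hker
  · intro b hb
    have hdvd : red h ∣ red b := IsDiscreteValuationRing.addVal_le_iff_dvd.mp (hhmin b hb)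
    obtain ⟨a, ha⟩ := hdvd
    obtain ⟨c, rfl⟩ := hred a
    have h1 : red (b - h * c) = 0 := by rw [map_sub, map_mul, ha, sub_self]
    obtain ⟨b', hb'⟩ := (red_eq_zero_iff red π hker _).mp h1
    have hb'q : b' ∈ q := by
      have h2 : π * b' ∈ q := by
        rw [← hb']
        exact Ideal.sub_mem _ hb (Ideal.mul_mem_right _ _ hhq)
      exact (hqp.mem_or_mem h2).resolve_left hπq
    have e : b = h * c + π * b' := by rw [← hb']; ring
    rw [e]
    refine Submodule.add_mem_sup ?_ ?_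
    · exact Ideal.mul_mem_right _ _ (Ideal.mem_span_singleton_self h)
    · rw [smul_eq_mul]
      exact Ideal.mul_mem_mul (Ideal.mem_span_singleton_self π) hb'q

/-- if `b c = π ^ n` and `π ∤ b` then `b` is a unit. -/
theorem isUnit_of_mul_eq_pow (hπ : Prime π) {b : B} (hb : ¬ π ∣ b) :
    ∀ (n : ℕ) (c : B), b * c = π ^ n → IsUnit b := by
  intro n
  induction n with
  | zero => intro c hc; exact IsUnit.of_mul_eq_one c (by simpa using hc)
  | succ n ih =>
    intro c hc
    have h1 : π ∣ b * c := by rw [hc, pow_succ]; exact Dvd.intro_left _ rfl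
    obtain ⟨c', rfl⟩ := (hπ.dvd_or_dvd h1).resolve_left hb
    apply ih c'
    have h2 : π * (b * c') = π * π ^ n := by rw [← pow_succ', ← hc]; ring
    exact mul_left_cancel₀ hπ.ne_zero h2

/-- a non-unit not divisible by `π` lies in a prime ideal not containing `π`. -/
theorem exists_prime_ideal (hπ : Prime π) {b : B} (hb : ¬ π ∣ b) (hbu : ¬ IsUnit b) :
    ∃ q : Ideal B, q.IsPrime ∧ b ∈ q ∧ π ∉ q := by
  have hdisj : Disjoint ((Ideal.span {b} : Ideal B) : Set B) (Submonoid.powers π : Set B) := by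
    rw [Set.disjoint_left]
    rintro x hx ⟨n, rfl⟩
    obtain ⟨c, hc⟩ := Ideal.mem_span_singleton.mp hx
    exact hbu (isUnit_of_mul_eq_pow π hπ hb n c hc.symm)
  obtain ⟨q, hq, hbq, hqd⟩ := Ideal.exists_le_prime_disjoint _ _ hdisj
  refine ⟨q, hq, hbq (Ideal.mem_span_singleton_self b), fun h => ?_⟩
  exact Set.disjoint_left.mp hqd h ⟨1, pow_one π⟩

include hred hker in
/-- a non-unit not divisible by `π` is divisible by a prime element not associated to `π`. -/
theorem exists_prime_dvd [IsNoetherianRing B] (hπ : Prime π) {b : B} (hb : ¬ π ∣ b)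
    (hbu : ¬ IsUnit b) : ∃ h : B, Prime h ∧ h ∣ b ∧ ¬ π ∣ h := by
  obtain ⟨q, hq, hbq, hπq⟩ := exists_prime_ideal π hπ hb hbu
  have hb0 : b ≠ 0 := fun h => hb (h ▸ dvd_zero π)
  have hq0 : q ≠ ⊥ := fun h => hb0 (by simpa [h] using hbq)
  obtain ⟨h, rfl⟩ := exists_eq_span_singleton red hred π hker hπ q hπq hq0
  have hh0 : h ≠ 0 := fun h0 => hq0 (by simp [h0])
  refine ⟨h, (Ideal.span_singleton_prime hh0).mp hq, Ideal.mem_span_singleton.mp hbq, ?_⟩
  intro hdvd
  exact hb (hdvd.trans (Ideal.mem_span_singleton.mp hbq))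

include hred hker in
theorem prime_of_irreducible [IsNoetherianRing B] (hπ : Prime π) {r : B} (hr : Irreducible r) :
    Prime r := by
  by_cases hπr : π ∣ r
  · obtain ⟨u, rfl⟩ := hπr
    have hu : IsUnit u := (hr.isUnit_or_isUnit rfl).resolve_left hπ.not_isUnit
    exact (Associated.prime_iff ⟨hu.unit, rfl⟩).mp hπ
  · obtain ⟨h, hh, ⟨u, rfl⟩, -⟩ := exists_prime_dvd red hred π hker hπ hπr hr.not_isUnit
    have hu : IsUnit u := (hr.isUnit_or_isUnit rfl).resolve_left hh.not_isUnit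
    exact (Associated.prime_iff ⟨hu.unit, rfl⟩).mp hh

include hred hker in
/-- `B` is a UFD. -/
theorem uniqueFactorizationMonoid [IsNoetherianRing B] (hπ : Prime π) :
    UniqueFactorizationMonoid B :=
  { (inferInstance : IsCancelMulZero B), (inferInstance : WfDvdMonoid B) with
    irreducible_iff_prime := fun {_} =>
      ⟨prime_of_irreducible red hred π hker hπ, Prime.irreducible⟩ }

end Fermat.Agent.S26.TwoDim

/-! ### the valuation ring of a prime element of a domain inside its fraction field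

`hmax` says that every nonzero element is `h ^ n * b'` with `h ∤ b'` (automatic in a `WfDvdMonoid`:
`PrimeVal.hmax_of_wfDvdMonoid`). -/

namespace Fermat.Agent.S26.PrimeVal

variable {B 𝕃 : Type*} [CommRing B] [IsDomain B] [Field 𝕃] (ι : B →+* 𝕃)
  (hι : Function.Injective ι) (hfrac : ∀ f : 𝕃, ∃ a b : B, b ≠ 0 ∧ f = ι a / ι b)
  (h : B) (hh : Prime h)
  (hmax : ∀ b : B, b ≠ 0 → ∃ (n : ℕ) (b' : B), ¬ h ∣ b' ∧ b = h ^ n * b')

include hh in
theorem hmax_of_wfDvdMonoid [WfDvdMonoid B] :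
    ∀ b : B, b ≠ 0 → ∃ (n : ℕ) (b' : B), ¬ h ∣ b' ∧ b = h ^ n * b' :=
  fun _ hb => WfDvdMonoid.max_power_factor hb hh.irreducible

include hι in
theorem map_ne_zero {b : B} (hb : b ≠ 0) : ι b ≠ 0 := fun h0 => hb (hι (by rw [h0, map_zero]))

theorem ne_zero_of_not_dvd {b : B} (hb : ¬ h ∣ b) : b ≠ 0 := fun h0 => hb (h0 ▸ dvd_zero h)

include hι hh in
/-- the localisation `B_(h)` as a subring of `𝕃` -/
def subring : Subring 𝕃 where
  carrier := {f | ∃ a b : B, ¬ h ∣ b ∧ f = ι a / ι b}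
  mul_mem' := by
    rintro _ _ ⟨a, b, hb, rfl⟩ ⟨a', b', hb', rfl⟩
    refine ⟨a * a', b * b', fun hd => (hh.dvd_or_dvd hd).elim hb hb', ?_⟩
    rw [map_mul, map_mul, div_mul_div_comm]
  one_mem' := ⟨1, 1, fun hd => hh.not_isUnit (isUnit_of_dvd_one hd), by simp⟩
  add_mem' := by
    rintro _ _ ⟨a, b, hb, rfl⟩ ⟨a', b', hb', rfl⟩
    refine ⟨a * b' + b * a', b * b', fun hd => (hh.dvd_or_dvd hd).elim hb hb', ?_⟩
    rw [map_add, map_mul, map_mul, map_mul,
      div_add_div _ _ (map_ne_zero ι hι (ne_zero_of_not_dvd h hb))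
        (map_ne_zero ι hι (ne_zero_of_not_dvd h hb'))]
  zero_mem' := ⟨0, 1, fun hd => hh.not_isUnit (isUnit_of_dvd_one hd), by simp⟩
  neg_mem' := by
    rintro _ ⟨a, b, hb, rfl⟩
    exact ⟨-a, b, hb, by rw [map_neg, neg_div]⟩

include hι hfrac hh hmax

/-- every element of `𝕃` is `ι h ^ n * (ι a / ι b)` with `h ∤ a`, `h ∤ b` -/
theorem exists_eq_zpow_mul {f : 𝕃} (hf : f ≠ 0) :
    ∃ (n : ℤ) (a b : B), ¬ h ∣ a ∧ ¬ h ∣ b ∧ f = ι h ^ n * (ι a / ι b) := by
  obtain ⟨a, b, hb, rfl⟩ := hfrac f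
  have ha : a ≠ 0 := by
    rintro rfl
    simp at hf
  obtain ⟨m, a', ha', rfl⟩ := hmax a ha
  obtain ⟨n, b', hb', rfl⟩ := hmax b hb
  refine ⟨(m : ℤ) - n, a', b', ha', hb', ?_⟩
  have hh0 : ι h ≠ 0 := map_ne_zero ι hι hh.ne_zero
  rw [map_mul, map_mul, map_pow, map_pow, zpow_sub₀ hh0, zpow_natCast, zpow_natCast]
  rw [mul_div_mul_comm]

/-- the valuation ring `B_(h)` of `𝕃` -/
def valuationSubring : ValuationSubring 𝕃 :=
  { subring ι hι h hh with
    mem_or_inv_mem' := by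
      intro f
      by_cases hf : f = 0
      · left; rw [hf]; exact (subring ι hι h hh).zero_mem
      obtain ⟨n, a, b, ha, hb, rfl⟩ := exists_eq_zpow_mul ι hι hfrac h hh hmax hf
      rcases le_total 0 n with hn | hn
      · left
        obtain ⟨k, rfl⟩ := Int.eq_ofNat_of_zero_le hn
        refine ⟨h ^ k * a, b, hb, ?_⟩
        rw [map_mul, map_pow, zpow_natCast, mul_div_assoc]
      · right
        obtain ⟨k, hk⟩ := Int.eq_ofNat_of_zero_le (neg_nonneg.mpr hn)
        refine ⟨h ^ k * b, a, ha, ?_⟩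
        rw [map_mul, map_pow, mul_inv, inv_div, ← zpow_neg, hk, zpow_natCast, mul_div_assoc] }

theorem mem_valuationSubring_iff {f : 𝕃} :
    f ∈ valuationSubring ι hι hfrac h hh hmax ↔ ∃ a b : B, ¬ h ∣ b ∧ f = ι a / ι b := Iff.rfl

theorem map_mem_valuationSubring (b : B) :
    ι b ∈ valuationSubring ι hι hfrac h hh hmax :=
  ⟨b, 1, fun hd => hh.not_isUnit (isUnit_of_dvd_one hd), by simp⟩

/-- `(ι b)⁻¹ ∈ B_(h)` iff `h ∤ b` -/
theorem inv_map_mem_iff {b : B} (hb0 : b ≠ 0) :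
    (ι b)⁻¹ ∈ valuationSubring ι hι hfrac h hh hmax ↔ ¬ h ∣ b := by
  constructor
  · rintro ⟨a, c, hc, hac⟩ hd
    have hc0 := map_ne_zero ι hι (ne_zero_of_not_dvd h hc)
    have hb0' := map_ne_zero ι hι hb0
    have h1 : ι c = ι (a * b) := by
      rw [map_mul]
      field_simp at hac
      rw [hac, mul_comm]
    have h2 := hι h1
    exact hc (h2 ▸ Dvd.dvd.mul_left hd a)
  · intro hd
    exact ⟨1, b, hd, by simp⟩

/-- UNIQUENESS: a valuation ring `O ⊇ B` of `𝕃` with `𝔪_O ∩ B = (h)` is `B_(h)`. -/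
theorem eq_valuationSubring (O : ValuationSubring 𝕃) (hO : ∀ b, ι b ∈ O)
    (hO' : ∀ b : B, b ≠ 0 → ((ι b)⁻¹ ∈ O ↔ ¬ h ∣ b)) :
    O = valuationSubring ι hι hfrac h hh hmax := by
  have hle : valuationSubring ι hι hfrac h hh hmax ≤ O := by
    rintro _ ⟨a, b, hb, rfl⟩
    rw [div_eq_mul_inv]
    exact O.mul_mem _ _ (hO a) ((hO' b (ne_zero_of_not_dvd h hb)).mpr hb)
  refine le_antisymm ?_ hle
  intro f hf
  by_contra hfn
  have hf0 : f ≠ 0 := fun h0 => hfn (h0 ▸ zero_mem _)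
  obtain ⟨n, a, b, ha, hb, rfl⟩ := exists_eq_zpow_mul ι hι hfrac h hh hmax hf0
  have hh0 : ι h ≠ 0 := map_ne_zero ι hι hh.ne_zero
  have ha0 := map_ne_zero ι hι (ne_zero_of_not_dvd h ha)
  have hb0 := map_ne_zero ι hι (ne_zero_of_not_dvd h hb)
  rcases le_or_gt 0 n with hn | hn
  · apply hfn
    obtain ⟨k, rfl⟩ := Int.eq_ofNat_of_zero_le hn
    refine ⟨h ^ k * a, b, hb, ?_⟩
    rw [map_mul, map_pow, zpow_natCast, mul_div_assoc]
  · -- then `(ι h)⁻¹ ∈ O`, contradiction
    obtain ⟨k, hk⟩ := Int.eq_ofNat_of_zero_le (show 0 ≤ -n - 1 by omega)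
    have h1 : (ι h)⁻¹ = ι h ^ n * (ι a / ι b) * (ι (h ^ k * b) * (ι a)⁻¹) := by
      have hn' : n = -(k : ℤ) - 1 := by omega
      rw [hn', map_mul, map_pow, zpow_sub₀ hh0, zpow_neg, zpow_natCast, zpow_one]
      field_simp
    have h2 : (ι h)⁻¹ ∈ O := by
      rw [h1]
      exact O.mul_mem _ _ hf (O.mul_mem _ _ (hO _) ((hO' a (ne_zero_of_not_dvd h ha)).mpr ha))
    exact ((hO' h hh.ne_zero).mp h2) dvd_rfl

/-- every non-unit of `B_(h)` is divisible by `ι h` in `B_(h)`. -/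
theorem exists_eq_mul_of_inv_not_mem {f : 𝕃}
    (hf : f ∈ valuationSubring ι hι hfrac h hh hmax)
    (hf' : f⁻¹ ∉ valuationSubring ι hι hfrac h hh hmax) :
    ∃ g ∈ valuationSubring ι hι hfrac h hh hmax, f = ι h * g := by
  obtain ⟨a, b, hb, rfl⟩ := hf
  by_cases ha : h ∣ a
  · obtain ⟨a', rfl⟩ := ha
    exact ⟨ι a' / ι b, ⟨a', b, hb, rfl⟩, by rw [map_mul, mul_div_assoc]⟩
  · exact absurd ⟨b, a, ha, by rw [inv_div]⟩ hf'

theorem valuationSubring_ne_top : valuationSubring ι hι hfrac h hh hmax ≠ ⊤ := by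
  intro htop
  have h1 : (ι h)⁻¹ ∈ valuationSubring ι hι hfrac h hh hmax := htop ▸ ValuationSubring.mem_top _
  exact (inv_map_mem_iff ι hι hfrac h hh hmax hh.ne_zero).mp h1 dvd_rfl

/-- an element of `B_(h)` is a unit iff its inverse lies in `B_(h)` -/
theorem isUnit_iff (x : valuationSubring ι hι hfrac h hh hmax) (hx : x ≠ 0) :
    IsUnit x ↔ (x : 𝕃)⁻¹ ∈ valuationSubring ι hι hfrac h hh hmax := by
  have hx0 : (x : 𝕃) ≠ 0 := by simpa using hx
  constructor
  · intro hu
    obtain ⟨y, hy⟩ := isUnit_iff_exists_inv.mp hu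
    have h1 : (x : 𝕃) * (y : 𝕃) = 1 := congrArg Subtype.val hy
    rw [← eq_inv_of_mul_eq_one_right h1]
    exact y.2
  · intro hi
    exact isUnit_iff_exists_inv.mpr ⟨⟨_, hi⟩, Subtype.ext (mul_inv_cancel₀ hx0)⟩

/-- the uniformiser `ι h` of `B_(h)` -/
def unif : valuationSubring ι hι hfrac h hh hmax :=
  ⟨ι h, map_mem_valuationSubring ι hι hfrac h hh hmax h⟩

theorem irreducible_unif : Irreducible (unif ι hι hfrac h hh hmax) := by
  have hh0 : ι h ≠ 0 := map_ne_zero ι hι hh.ne_zero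
  have hu0 : unif ι hι hfrac h hh hmax ≠ 0 := fun h0 => hh0 (congrArg Subtype.val h0)
  have hnu : ¬ IsUnit (unif ι hι hfrac h hh hmax) := by
    rw [isUnit_iff ι hι hfrac h hh hmax _ hu0]
    exact fun hi => (inv_map_mem_iff ι hι hfrac h hh hmax hh.ne_zero).mp hi dvd_rfl
  refine ⟨hnu, ?_⟩
  intro x y hxy
  by_contra hcon
  rw [not_or] at hcon
  have hx0 : x ≠ 0 := by rintro rfl; exact hu0 (by rw [hxy, zero_mul])
  have hy0 : y ≠ 0 := by rintro rfl; exact hu0 (by rw [hxy, mul_zero])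
  obtain ⟨x', hx', ex⟩ := exists_eq_mul_of_inv_not_mem ι hι hfrac h hh hmax x.2
    (fun hi => hcon.1 ((isUnit_iff ι hι hfrac h hh hmax x hx0).mpr hi))
  obtain ⟨y', hy', ey⟩ := exists_eq_mul_of_inv_not_mem ι hι hfrac h hh hmax y.2
    (fun hi => hcon.2 ((isUnit_iff ι hι hfrac h hh hmax y hy0).mpr hi))
  have h1 : ι h = (x : 𝕃) * (y : 𝕃) := congrArg Subtype.val hxy
  rw [ex, ey] at h1
  have h2 : (ι h)⁻¹ = x' * y' := by
    have h3 : ι h * 1 = ι h * (ι h * (x' * y')) := by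
      rw [mul_one]
      conv_lhs => rw [h1]
      ring
    have h4 := mul_left_cancel₀ hh0 h3
    exact (eq_inv_of_mul_eq_one_right h4.symm).symm
  apply hnu
  rw [isUnit_iff ι hι hfrac h hh hmax _ hu0]
  show (ι h)⁻¹ ∈ _
  rw [h2]
  exact mul_mem hx' hy'

theorem hasUnitMulPowIrreducibleFactorization :
    IsDiscreteValuationRing.HasUnitMulPowIrreducibleFactorization
      (valuationSubring ι hι hfrac h hh hmax) := by
  refine ⟨unif ι hι hfrac h hh hmax, irreducible_unif ι hι hfrac h hh hmax, ?_⟩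
  intro x hx
  have hx0 : (x : 𝕃) ≠ 0 := by simpa using hx
  have hh0 : ι h ≠ 0 := map_ne_zero ι hι hh.ne_zero
  obtain ⟨a, b, hb, hxab⟩ := x.2
  have ha0 : a ≠ 0 := by
    rintro rfl
    apply hx0
    rw [hxab]; simp
  obtain ⟨n, a', ha', rfl⟩ := hmax a ha0
  have hmem : ι a' / ι b ∈ valuationSubring ι hι hfrac h hh hmax := ⟨a', b, hb, rfl⟩
  have hmem' : (ι a' / ι b)⁻¹ ∈ valuationSubring ι hι hfrac h hh hmax :=
    ⟨b, a', ha', by rw [inv_div]⟩
  have hne : (⟨_, hmem⟩ : valuationSubring ι hι hfrac h hh hmax) ≠ 0 := by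
    intro h0
    have h1 : ι a' / ι b = 0 := congrArg Subtype.val h0
    apply hx0
    rw [hxab, map_mul, mul_div_assoc, h1, mul_zero]
  have hu : IsUnit (⟨_, hmem⟩ : valuationSubring ι hι hfrac h hh hmax) :=
    (isUnit_iff ι hι hfrac h hh hmax _ hne).mpr hmem'
  refine ⟨n, hu.unit, ?_⟩
  apply Subtype.ext
  show (ι h) ^ n * (ι a' / ι b) = (x : 𝕃)
  rw [hxab, map_mul, map_pow, mul_div_assoc]

theorem isDiscreteValuationRing :
    IsDiscreteValuationRing (valuationSubring ι hι hfrac h hh hmax) :=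
  IsDiscreteValuationRing.ofHasUnitMulPowIrreducibleFactorization
    (hasUnitMulPowIrreducibleFactorization ι hι hfrac h hh hmax)

theorem isPrincipalIdealRing :
    IsPrincipalIdealRing (valuationSubring ι hι hfrac h hh hmax) :=
  (isDiscreteValuationRing ι hι hfrac h hh hmax).toIsPrincipalIdealRing

/-! #### the residue homomorphism -/

section res

variable {E : Type*} [Field E] (r : B →+* E) (hr : ∀ b, r b = 0 ↔ h ∣ b)

/-- `ι a / ι b ↦ r a / r b` -/
noncomputable def resFun (x : valuationSubring ι hι hfrac h hh hmax) : E :=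
  r x.2.choose / r x.2.choose_spec.choose

include hr in
theorem resFun_eq (x : valuationSubring ι hι hfrac h hh hmax) (a b : B) (hb : ¬ h ∣ b)
    (hx : (x : 𝕃) = ι a / ι b) : resFun ι hι hfrac h hh hmax r x = r a / r b := by
  have hb₀ : ¬ h ∣ x.2.choose_spec.choose := x.2.choose_spec.choose_spec.1
  have hx₀ : (x : 𝕃) = ι x.2.choose / ι x.2.choose_spec.choose := x.2.choose_spec.choose_spec.2
  set a₀ := x.2.choose
  set b₀ := x.2.choose_spec.choose
  have h1 : ι (a₀ * b) = ι (a * b₀) := by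
    rw [map_mul, map_mul]
    have e := hx₀.symm.trans hx
    rwa [div_eq_div_iff (map_ne_zero ι hι (ne_zero_of_not_dvd h hb₀))
      (map_ne_zero ι hι (ne_zero_of_not_dvd h hb))] at e
  have h2 := congrArg r (hι h1)
  rw [map_mul, map_mul] at h2
  show r a₀ / r b₀ = r a / r b
  rw [div_eq_div_iff (fun h0 => hb₀ ((hr _).mp h0)) (fun h0 => hb ((hr _).mp h0))]
  exact h2

include hr in
/-- the residue homomorphism `B_(h) → E` extending `r : B → E` (`ker r = (h)`) -/
noncomputable def resHom : valuationSubring ι hι hfrac h hh hmax →+* E where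
  toFun := resFun ι hι hfrac h hh hmax r
  map_one' := by
    rw [resFun_eq ι hι hfrac h hh hmax r hr 1 1 1
      (fun hd => hh.not_isUnit (isUnit_of_dvd_one hd)) (by simp)]
    simp
  map_zero' := by
    rw [resFun_eq ι hι hfrac h hh hmax r hr 0 0 1
      (fun hd => hh.not_isUnit (isUnit_of_dvd_one hd)) (by simp)]
    simp
  map_mul' := by
    intro x y
    obtain ⟨a, b, hb, hx⟩ := x.2
    obtain ⟨a', b', hb', hy⟩ := y.2
    rw [resFun_eq ι hι hfrac h hh hmax r hr x a b hb hx,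
      resFun_eq ι hι hfrac h hh hmax r hr y a' b' hb' hy,
      resFun_eq ι hι hfrac h hh hmax r hr (x * y) (a * a') (b * b')
        (fun hd => (hh.dvd_or_dvd hd).elim hb hb')
        (by push_cast; rw [hx, hy, map_mul, map_mul, div_mul_div_comm])]
    rw [map_mul, map_mul, div_mul_div_comm]
  map_add' := by
    intro x y
    obtain ⟨a, b, hb, hx⟩ := x.2
    obtain ⟨a', b', hb', hy⟩ := y.2
    rw [resFun_eq ι hι hfrac h hh hmax r hr x a b hb hx,
      resFun_eq ι hι hfrac h hh hmax r hr y a' b' hb' hy,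
      resFun_eq ι hι hfrac h hh hmax r hr (x + y) (a * b' + b * a') (b * b')
        (fun hd => (hh.dvd_or_dvd hd).elim hb hb')
        (by push_cast
            rw [hx, hy, map_add, map_mul, map_mul, map_mul,
              div_add_div _ _ (map_ne_zero ι hι (ne_zero_of_not_dvd h hb))
                (map_ne_zero ι hι (ne_zero_of_not_dvd h hb'))])]
    rw [map_add, map_mul, map_mul, map_mul,
      div_add_div _ _ (fun h0 => hb ((hr _).mp h0)) (fun h0 => hb' ((hr _).mp h0))]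

theorem resHom_eq (x : valuationSubring ι hι hfrac h hh hmax) (a b : B) (hb : ¬ h ∣ b)
    (hx : (x : 𝕃) = ι a / ι b) : resHom ι hι hfrac h hh hmax r hr x = r a / r b :=
  resFun_eq ι hι hfrac h hh hmax r hr x a b hb hx

theorem resHom_map (b : B) :
    resHom ι hι hfrac h hh hmax r hr ⟨ι b, map_mem_valuationSubring ι hι hfrac h hh hmax b⟩
      = r b := by
  rw [resHom_eq ι hι hfrac h hh hmax r hr _ b 1
    (fun hd => hh.not_isUnit (isUnit_of_dvd_one hd)) (by simp)]
  simp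

theorem resHom_surjective (hE : ∀ e : E, ∃ a b : B, r b ≠ 0 ∧ e = r a / r b) :
    Function.Surjective (resHom ι hι hfrac h hh hmax r hr) := by
  intro e
  obtain ⟨a, b, hb, rfl⟩ := hE e
  have hb' : ¬ h ∣ b := fun hd => hb ((hr b).mpr hd)
  exact ⟨⟨ι a / ι b, a, b, hb', rfl⟩, resHom_eq ι hι hfrac h hh hmax r hr _ a b hb' rfl⟩

end res

end Fermat.Agent.S26.PrimeVal
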