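import Fermat.Agent.S26.FF.Defs
import Fermat.Agent.S26.Alg.TwoDim

/-! # S26 / M5-PrimePlace : the place attached to a prime element of a noetherian domain.

`A` a noetherian domain with fraction field `𝕃` (via an injective ring hom `j`), `h ∈ A` a prime element.
Then `A_(h)` is a DVR of `𝕃`.  If it contains the field `k` it is a `Place k 𝕃`.

Suggested proof: `Alg/TwoDim.lean`, namespace `PrimeVal` (helper65) constructs `A_(h)` as a `ValuationSubring 𝕃` (`PrimeVal.valuationSubring`, with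
`hmax := PrimeVal.hmax_of_wfDvdMonoid`; a noetherian domain is a `WfDvdMonoid`), with `mem_valuationSubring_iff`, `map_mem_valuationSubring`,
`inv_map_mem_iff`, `valuationSubring_ne_top`, `isPrincipalIdealRing`, `exists_eq_mul_of_inv_not_mem` (`j h` generates the maximal ideal).
So `G := ⟨_, hk', ne_top, pir⟩ : Place k 𝕃`.  `0 < ord (j a) ↔ (j a)⁻¹ ∉ O_G` and `ord (j h) = 1` (a generator of the maximal ideal has `ord = 1`:
take `x` with `ord x = 1` (`Fermat.Agent.S24.FF.exists_ord_eq_one`), `x = j h * y`, `y ∈ O_G`, so `1 = ord (j h) + ord y`, both `≥ 0`, `ord (j h) > 0`). -/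

set_option autoImplicit false

namespace Fermat.Agent.S26

open AlgebraicCurve

theorem exists_place_of_prime {k 𝕃 A : Type*} [Field k] [Field 𝕃] [Algebra k 𝕃] [CommRing A] [IsDomain A]
    [IsNoetherianRing A] (j : A →+* 𝕃) (hj : Function.Injective j)
    (hfrac : ∀ f : 𝕃, ∃ a s : A, s ≠ 0 ∧ f * j s = j a) (h : A) (hh : Prime h)
    (hk : ∀ c : k, ∃ a s : A, ¬ h ∣ s ∧ algebraMap k 𝕃 c * j s = j a) :
    ∃ G : Place k 𝕃, (∀ a : A, j a ∈ G.toValuationSubring) ∧
      (∀ a : A, a ≠ 0 → (0 < G.ord (j a) ↔ h ∣ a)) ∧ G.ord (j h) = 1 ∧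
      ∀ f ∈ G.toValuationSubring, ∃ a s : A, ¬ h ∣ s ∧ f * j s = j a := by
  have hfrac' : ∀ f : 𝕃, ∃ a b : A, b ≠ 0 ∧ f = j a / j b := by
    intro f
    obtain ⟨a, s, hs, h1⟩ := hfrac f
    exact ⟨a, s, hs, by rw [eq_div_iff (PrimeVal.map_ne_zero j hj hs)]; exact h1⟩
  have hmax := PrimeVal.hmax_of_wfDvdMonoid h hh
  let G : Place k 𝕃 :=
    { toValuationSubring := PrimeVal.valuationSubring j hj hfrac' h hh hmax
      algebraMap_mem' := by
        intro c
        obtain ⟨a, s, hs, h1⟩ := hk c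
        refine (PrimeVal.mem_valuationSubring_iff j hj hfrac' h hh hmax).2 ⟨a, s, hs, ?_⟩
        rw [eq_div_iff (PrimeVal.map_ne_zero j hj (PrimeVal.ne_zero_of_not_dvd h hs))]
        exact h1
      ne_top' := PrimeVal.valuationSubring_ne_top j hj hfrac' h hh hmax
      isPrincipalIdealRing' := PrimeVal.isPrincipalIdealRing j hj hfrac' h hh hmax }
  refine ⟨G, fun a => PrimeVal.map_mem_valuationSubring j hj hfrac' h hh hmax a, ?_, ?_, ?_⟩
  · intro a ha
    have h1 : (j a)⁻¹ ∈ G.toValuationSubring ↔ ¬ h ∣ a :=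
      PrimeVal.inv_map_mem_iff j hj hfrac' h hh hmax ha
    rw [← Fermat.Agent.S24.FF.ord_nonneg_iff, G.ord_inv] at h1
    constructor
    · intro h2
      by_contra h3
      have := h1.2 h3
      omega
    · intro h2
      by_contra h3
      exact (h1.1 (by omega)) h2
  · exact G.ord_coe_irreducible (PrimeVal.irreducible_unif j hj hfrac' h hh hmax)
  · intro f hf
    obtain ⟨a, s, hs, h1⟩ := (PrimeVal.mem_valuationSubring_iff j hj hfrac' h hh hmax).1 hf
    refine ⟨a, s, hs, ?_⟩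
    rw [h1, div_mul_cancel₀ _ (PrimeVal.map_ne_zero j hj (PrimeVal.ne_zero_of_not_dvd h hs))]

end Fermat.Agent.S26
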