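import Fermat.Agent.S26.Alg.Through

/-! # S26 / M5-SumFormula : the sum formula.

Context and notation: `Alg/Through.lean` (its lemmas are black boxes here).

* `sum_formula`: `UniqueFactorizationMonoid.induction_on_prime`.  Units: every term vanishes.  `a = p * a₁`: `Q ↦ ord_Q (ι p) * genMult Q`
  is supported at the single place `Q_p` of `exists_isGen_of_prime`, with value `1 * lam p` (the chosen generator is associated to `p`).
  In detail: for a prime `p` with `D p`, `¬ π ∣ p` (so `¬ p ∣ π`, both prime... if `p ∣ π` then `p ~ π`): let `Q_p` be the place of `exists_isGen_of_prime`.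
  If `ord_Q (ι p) * genMult Q ≠ 0` then `genMult Q ≠ 0`, so `Q` has a generator `g` (`IsGen ι Q g`), `B ⊆ O_Q`, `ord_Q (ι p) > 0`, so `g ∣ p`, and
  `IsGen.eq_of_dvd` gives `Q = Q_p`.  At `Q_p` the chosen generator `g` satisfies `g ∣ p` and `p ∣ g`: `g = p * u`, `u` a unit, `lam g = lam p + lam u = lam p`.
  So `∑ᶠ Q, ord_Q (ι p) * genMult Q = lam p` (`finsum_eq_single`), with support `⊆ {Q_p}`.
  Additivity: `ord_Q (ι (p * a)) = ord_Q (ι p) + ord_Q (ι a)`, `finsum_add_distrib` with the two finiteness statements. -/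

set_option autoImplicit false

namespace Fermat.Agent.S26

open AlgebraicCurve

variable {Φ 𝕃 B : Type*} [Field Φ] [Field 𝕃] [Algebra Φ 𝕃] [CommRing B] [IsDomain B]
  [IsNoetherianRing B] [UniqueFactorizationMonoid B]
  (ι : B →+* 𝕃) (hι : Function.Injective ι) (hfrac : ∀ f : 𝕃, ∃ a s : B, s ≠ 0 ∧ f * ι s = ι a)
  (π : B) (hπ : Prime π) (hπΦ : ∃ ϖ : Φ, ι π = algebraMap Φ 𝕃 ϖ)
  (hΦ : ∀ ω : Φ, ∃ (n : ℕ) (b : B), algebraMap Φ 𝕃 ω * ι π ^ n = ι b)

namespace SumFormula

omit [IsDomain B] [IsNoetherianRing B] [UniqueFactorizationMonoid B] in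
theorem exists_isGen_of_genMult_ne_zero {lam : B → ℤ} {Q : Place Φ 𝕃}
    (h : genMult ι lam Q ≠ 0) : ∃ b : B, IsGen ι Q b := by
  by_contra hcon
  exact h (by rw [genMult, dif_neg hcon])

omit [IsNoetherianRing B] [UniqueFactorizationMonoid B] in
include hι hfrac in
/-- units of `B` have order `0` at every place centred on `B`. -/
theorem ord_unit {Q : Place Φ 𝕃} {g : B} (hg : IsGen ι Q g) {u : B} (hu : IsUnit u) :
    Q.ord (ι u) = 0 := by
  have h0 : 0 ≤ Q.ord (ι u) := Fermat.Agent.S24.FF.ord_nonneg_of_mem Q (hg.1 u)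
  have h1 : ¬ 0 < Q.ord (ι u) := by
    intro hpos
    have hdvd : g ∣ u := (hg.2 u).1 (Or.inr hpos)
    exact (IsGen.prime ι hι hfrac hg).not_isUnit (isUnit_of_dvd_unit hdvd hu)
  omega

include hι hfrac hπ hΦ in
/-- the prime case. -/
theorem prime_case (lam : B → ℤ) (D : B → Prop) (hDu : ∀ u, IsUnit u → D u ∧ lam u = 0)
    (hlam : ∀ a b, D a → D b → lam (a * b) = lam a + lam b)
    (p : B) (hp : Prime p) (hDp : D p) (hpπ : ¬ π ∣ p) :
    ∃ Qp : Place Φ 𝕃, (∀ Q, Q ≠ Qp → Q.ord (ι p) * genMult ι lam Q = 0) ∧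
      Qp.ord (ι p) * genMult ι lam Qp = lam p := by
  have hpπ' : ¬ p ∣ π := by
    intro h
    exact hpπ ((hp.irreducible.associated_of_dvd hπ.irreducible h).symm.dvd)
  obtain ⟨Qp, hQp, hord⟩ := exists_isGen_of_prime ι hι hfrac π hπ hΦ p hp hpπ'
  refine ⟨Qp, fun Q hQ => ?_, ?_⟩
  · by_contra hne
    have h1 : Q.ord (ι p) ≠ 0 := left_ne_zero_of_mul hne
    have h2 : genMult ι lam Q ≠ 0 := right_ne_zero_of_mul hne
    obtain ⟨g, hg⟩ := exists_isGen_of_genMult_ne_zero ι h2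
    have h0 : 0 ≤ Q.ord (ι p) := Fermat.Agent.S24.FF.ord_nonneg_of_mem Q (hg.1 p)
    have hdvd : g ∣ p := (hg.2 p).1 (Or.inr (by omega))
    exact hQ (IsGen.eq_of_dvd ι hι hfrac hg hQp hdvd)
  · have hex : ∃ b : B, IsGen ι Qp b := ⟨p, hQp⟩
    rw [hord, one_mul, genMult, dif_pos hex]
    have hg := hex.choose_spec
    set g := hex.choose with hgdef
    have h1 : g ∣ p := (hg.2 p).1 (Or.inr (by omega))
    have h2 : p ∣ g := (hQp.2 g).1 ((hg.2 g).2 dvd_rfl)
    obtain ⟨u, hu⟩ := associated_of_dvd_dvd h2 h1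
    rw [← hu, hlam p u hDp (hDu u u.isUnit).1, (hDu u u.isUnit).2, add_zero]

end SumFormula

open SumFormula in
include hι hfrac hπ hπΦ hΦ in
/-- **sum formula** for a function `lam` which is additive on a saturated multiplicative set `D`. -/
theorem sum_formula (lam : B → ℤ) (D : B → Prop) (hDu : ∀ u, IsUnit u → D u ∧ lam u = 0)
    (hDmul : ∀ a b, D (a * b) ↔ D a ∧ D b) (hlam : ∀ a b, D a → D b → lam (a * b) = lam a + lam b)
    (a : B) (ha : D a) (ha0 : a ≠ 0) (haπ : ¬ π ∣ a) :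
    {Q : Place Φ 𝕃 | Q.ord (ι a) * genMult ι lam Q ≠ 0}.Finite ∧
      lam a = ∑ᶠ Q : Place Φ 𝕃, Q.ord (ι a) * genMult ι lam Q := by
  induction a using UniqueFactorizationMonoid.induction_on_prime with
  | h₁ => exact absurd rfl ha0
  | h₂ u hu =>
    have hz : ∀ Q : Place Φ 𝕃, Q.ord (ι u) * genMult ι lam Q = 0 := by
      intro Q
      by_cases h : genMult ι lam Q = 0
      · rw [h, mul_zero]
      · obtain ⟨g, hg⟩ := exists_isGen_of_genMult_ne_zero ι h
        rw [ord_unit ι hι hfrac hg hu, zero_mul]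
    refine ⟨?_, ?_⟩
    · simp [hz]
    · simp [hz, (hDu u hu).2]
  | h₃ a p ha0' hp ih =>
    obtain ⟨hDp, hDa⟩ := (hDmul p a).1 ha
    have hπp : ¬ π ∣ p := fun h => haπ (h.mul_right a)
    have hπa : ¬ π ∣ a := fun h => haπ (h.mul_left p)
    obtain ⟨hfin, hsum⟩ := ih hDa ha0' hπa
    obtain ⟨Qp, hQ1, hQ2⟩ := prime_case ι hι hfrac π hπ hΦ lam D hDu hlam p hp hDp hπp
    have hιp : ι p ≠ 0 := fun h => hp.ne_zero (hι (by rw [h, map_zero]))
    have hιa : ι a ≠ 0 := fun h => ha0' (hι (by rw [h, map_zero]))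
    have hadd : ∀ Q : Place Φ 𝕃, Q.ord (ι (p * a)) * genMult ι lam Q
        = Q.ord (ι p) * genMult ι lam Q + Q.ord (ι a) * genMult ι lam Q := by
      intro Q
      rw [map_mul, Q.ord_mul hιp hιa, add_mul]
    have hfinp : (Function.support fun Q : Place Φ 𝕃 => Q.ord (ι p) * genMult ι lam Q).Finite := by
      refine (Set.finite_singleton Qp).subset fun Q hQ => ?_
      by_contra hne
      exact hQ (hQ1 Q hne)
    have hfina : (Function.support fun Q : Place Φ 𝕃 => Q.ord (ι a) * genMult ι lam Q).Finite :=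
      hfin
    refine ⟨?_, ?_⟩
    · refine (hfinp.union hfina).subset fun Q hQ => ?_
      by_contra hne
      rw [Set.mem_union, not_or] at hne
      have h1 : Q.ord (ι p) * genMult ι lam Q = 0 := Function.notMem_support.1 hne.1
      have h2 : Q.ord (ι a) * genMult ι lam Q = 0 := Function.notMem_support.1 hne.2
      exact hQ (by rw [hadd, h1, h2, add_zero])
    · simp only [hadd]
      rw [finsum_add_distrib hfinp hfina, ← hsum, finsum_eq_single _ Qp hQ1, hQ2,
        hlam p a hDp hDa]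

end Fermat.Agent.S26
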