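import Fermat.Agent.S26.Alg.PrimePlace
import Fermat.Agent.S26.FF.Basic

/-! # S26 / M5-Through : places of `𝕃/Φ` centred on a factorial domain `B ⊆ 𝕃`, and the sum formula.

Abstract context: `B` a noetherian factorial domain with fraction field `𝕃` (via `ι`), `π ∈ B` a prime element which is a nonzero
constant (`ι π ∈ Φ`), `Φ ⊆ B[1/π]`, and every nonzero prime ideal of `B` not containing `π` is principal.
(Application: `B = B_P`, see `Curve/Spec/*.lean`.)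

`IsGen ι Q b`: the place `Q` of `𝕃/Φ` contains `B` and `m_Q ∩ B = (b)`.

* `IsGen.prime`: `b ≠ 0` (otherwise all nonzero elements of `B` are units of `O_Q`, so `O_Q = 𝕃` by `hfrac`), not a unit, prime.
* `IsGen.not_pi_dvd`: `ι π` is a nonzero constant, so `ord_Q (ι π) = 0`.
* `exists_isGen`: `𝔮 := {b | b = 0 ∨ 0 < ord_Q (ι b)}` is a prime ideal, `≠ ⊥`, `π ∉ 𝔮`; `hprin`.
* `exists_isGen_of_prime`: `exists_place_of_prime` with `k := Φ` (`hk` from `hΦ`: `s = π ^ n`, `¬ h ∣ π ^ n`).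
* `IsGen.eq_of_dvd`: if `f ∈ O_Q`, write `f = ι a / ι s` with `a, s` not both divisible by `b` (cancel powers of `b`); then `¬ b ∣ s`, so
  `¬ b' ∣ s` (`b`, `b'` are associated primes), `ι s` is a unit of `O_Q'`, `f ∈ O_Q'`.  `Fermat.Agent.S24.FF.eq_of_le`. -/

set_option autoImplicit false

namespace Fermat.Agent.S26

open AlgebraicCurve

section defs

variable {Φ 𝕃 B : Type*} [Field Φ] [Field 𝕃] [Algebra Φ 𝕃] [CommRing B]

/-- `B ⊆ O_Q` and `b` generates `m_Q ∩ B`. -/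
def IsGen (ι : B →+* 𝕃) (Q : Place Φ 𝕃) (b : B) : Prop :=
  (∀ b', ι b' ∈ Q.toValuationSubring) ∧ ∀ b', (b' = 0 ∨ 0 < Q.ord (ι b')) ↔ b ∣ b'

open Classical in
/-- the value of `lam` at a generator of the centre of `Q` on `B` (`0` if `Q` is not centred on `B`). -/
noncomputable def genMult (ι : B →+* 𝕃) (lam : B → ℤ) (Q : Place Φ 𝕃) : ℤ :=
  if h : ∃ b : B, IsGen ι Q b then lam h.choose else 0

end defs

variable {Φ 𝕃 B : Type*} [Field Φ] [Field 𝕃] [Algebra Φ 𝕃] [CommRing B] [IsDomain B]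
  [IsNoetherianRing B] [UniqueFactorizationMonoid B]
  (ι : B →+* 𝕃) (hι : Function.Injective ι) (hfrac : ∀ f : 𝕃, ∃ a s : B, s ≠ 0 ∧ f * ι s = ι a)
  (π : B) (hπ : Prime π) (hπΦ : ∃ ϖ : Φ, ι π = algebraMap Φ 𝕃 ϖ)
  (hΦ : ∀ ω : Φ, ∃ (n : ℕ) (b : B), algebraMap Φ 𝕃 ω * ι π ^ n = ι b)
  (hprin : ∀ 𝔮 : Ideal B, 𝔮.IsPrime → 𝔮 ≠ ⊥ → π ∉ 𝔮 → ∃ h : B, 𝔮 = Ideal.span {h})

include hι hfrac in
omit [IsNoetherianRing B] [UniqueFactorizationMonoid B] in
/-- not all nonzero elements of `B` are units at `Q`. -/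
theorem Through.false_of_forall_ord_eq_zero (Q : Place Φ 𝕃)
    (h : ∀ b' : B, b' ≠ 0 → Q.ord (ι b') = 0) : False := by
  obtain ⟨f, hf⟩ := Fermat.Agent.S24.FF.exists_ord_eq_one Q
  have hf0 : f ≠ 0 := Fermat.Agent.S24.FF.ne_zero_of_ord_ne_zero Q (by rw [hf]; exact one_ne_zero)
  obtain ⟨a, s, hs, h1⟩ := hfrac f
  have hs' : ι s ≠ 0 := fun h0 => hs (hι (by rw [h0, map_zero]))
  have ha : a ≠ 0 := by
    rintro rfl
    rw [map_zero] at h1
    exact (mul_ne_zero hf0 hs') h1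
  have h2 := congrArg Q.ord h1
  rw [Q.ord_mul hf0 hs', hf, h s hs, h a ha] at h2
  omega

include hι hfrac in
omit [IsNoetherianRing B] [UniqueFactorizationMonoid B] in
theorem IsGen.prime {Q : Place Φ 𝕃} {b : B} (h : IsGen ι Q b) : Prime b := by
  have hne : ∀ x : B, x ≠ 0 → ι x ≠ 0 := fun x hx h0 => hx (hι (by rw [h0, map_zero]))
  refine ⟨?_, ?_, ?_⟩
  · rintro rfl
    refine Through.false_of_forall_ord_eq_zero ι hι hfrac Q fun b' hb' => ?_
    have h1 := Fermat.Agent.S24.FF.ord_nonneg_of_mem Q (h.1 b')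
    have h2 : ¬ (0 < Q.ord (ι b')) := fun h3 => hb' (zero_dvd_iff.1 ((h.2 b').1 (Or.inr h3)))
    omega
  · intro hu
    rcases (h.2 1).2 hu.dvd with h1 | h1
    · exact one_ne_zero h1
    · rw [map_one, Q.ord_one] at h1
      exact lt_irrefl _ h1
  · intro x y hxy
    by_cases hx : x = 0
    · exact Or.inl (hx ▸ dvd_zero b)
    by_cases hy : y = 0
    · exact Or.inr (hy ▸ dvd_zero b)
    rcases (h.2 (x * y)).2 hxy with h1 | h1
    · exact absurd h1 (mul_ne_zero hx hy)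
    · rw [map_mul, Q.ord_mul (hne x hx) (hne y hy)] at h1
      by_cases h2 : 0 < Q.ord (ι x)
      · exact Or.inl ((h.2 x).1 (Or.inr h2))
      · exact Or.inr ((h.2 y).1 (Or.inr (by omega)))

include hι hπ hπΦ in
omit [IsNoetherianRing B] [UniqueFactorizationMonoid B] in
theorem IsGen.not_dvd_pi {Q : Place Φ 𝕃} {b : B} (h : IsGen ι Q b) : ¬ b ∣ π := by
  intro hd
  obtain ⟨ϖ, hϖ⟩ := hπΦ
  rcases (h.2 π).2 hd with h1 | h1
  · exact hπ.ne_zero h1
  · rw [hϖ, Fermat.Agent.S24.FF.ord_algebraMap] at h1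
    exact lt_irrefl _ h1

include hι hfrac hπ hπΦ hprin in
omit [IsNoetherianRing B] [UniqueFactorizationMonoid B] in
theorem exists_isGen (Q : Place Φ 𝕃) (hQ : ∀ b, ι b ∈ Q.toValuationSubring) : ∃ b, IsGen ι Q b := by
  have hne : ∀ x : B, x ≠ 0 → ι x ≠ 0 := fun x hx h0 => hx (hι (by rw [h0, map_zero]))
  have hnn : ∀ x : B, 0 ≤ Q.ord (ι x) := fun x => Fermat.Agent.S24.FF.ord_nonneg_of_mem Q (hQ x)
  let 𝔮 : Ideal B :=
    { carrier := {b | b = 0 ∨ 0 < Q.ord (ι b)}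
      zero_mem' := Or.inl rfl
      add_mem' := by
        intro x y hx hy
        by_cases hx0 : x = 0
        · rw [hx0, zero_add]; exact hy
        by_cases hy0 : y = 0
        · rw [hy0, add_zero]; exact hx
        by_cases hxy : x + y = 0
        · exact Or.inl hxy
        right
        have h1 := hx.resolve_left hx0
        have h2 := hy.resolve_left hy0
        have h3 := Fermat.Agent.S24.FF.ord_add Q (hne x hx0) (hne y hy0)
          (by rw [← map_add]; exact hne _ hxy)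
        rw [map_add]
        omega
      smul_mem' := by
        intro c x hx
        by_cases hc0 : c = 0
        · left; rw [hc0, zero_smul]
        by_cases hx0 : x = 0
        · left; rw [hx0, smul_zero]
        right
        have h1 := hx.resolve_left hx0
        have h2 := hnn c
        rw [smul_eq_mul, map_mul, Q.ord_mul (hne c hc0) (hne x hx0)]
        omega }
  have hmem : ∀ x : B, x ∈ 𝔮 ↔ (x = 0 ∨ 0 < Q.ord (ι x)) := fun x => Iff.rfl
  have hprime : 𝔮.IsPrime := by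
    refine ⟨?_, ?_⟩
    · intro htop
      have h1 : (1 : B) ∈ 𝔮 := by rw [htop]; trivial
      rcases (hmem 1).1 h1 with h1 | h1
      · exact one_ne_zero h1
      · rw [map_one, Q.ord_one] at h1
        exact lt_irrefl _ h1
    · intro x y hxy
      by_cases hx : x = 0
      · exact Or.inl (Or.inl hx)
      by_cases hy : y = 0
      · exact Or.inr (Or.inl hy)
      rcases (hmem _).1 hxy with h1 | h1
      · exact absurd h1 (mul_ne_zero hx hy)
      · rw [map_mul, Q.ord_mul (hne x hx) (hne y hy)] at h1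
        by_cases h2 : 0 < Q.ord (ι x)
        · exact Or.inl (Or.inr h2)
        · exact Or.inr (Or.inr (by omega))
  have hbot : 𝔮 ≠ ⊥ := by
    intro hbot
    refine Through.false_of_forall_ord_eq_zero ι hι hfrac Q fun b' hb' => ?_
    have h1 := hnn b'
    have h2 : ¬ (0 < Q.ord (ι b')) := fun h3 => hb' (by
      have : b' ∈ 𝔮 := Or.inr h3
      rwa [hbot, Ideal.mem_bot] at this)
    omega
  have hπ𝔮 : π ∉ 𝔮 := by
    intro hd
    obtain ⟨ϖ, hϖ⟩ := hπΦ
    rcases (hmem π).1 hd with h1 | h1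
    · exact hπ.ne_zero h1
    · rw [hϖ, Fermat.Agent.S24.FF.ord_algebraMap] at h1
      exact lt_irrefl _ h1
  obtain ⟨h, hh⟩ := hprin 𝔮 hprime hbot hπ𝔮
  refine ⟨h, hQ, fun b' => ?_⟩
  rw [← hmem, hh, Ideal.mem_span_singleton]

include hι hfrac hπ hΦ in
omit [UniqueFactorizationMonoid B] in
theorem exists_isGen_of_prime (h : B) (hh : Prime h) (hhπ : ¬ h ∣ π) :
    ∃ Q : Place Φ 𝕃, IsGen ι Q h ∧ Q.ord (ι h) = 1 := by
  obtain ⟨G, h1, h2, h3, -⟩ := exists_place_of_prime (k := Φ) ι hι hfrac h hh (by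
    intro c
    obtain ⟨n, b, hb⟩ := hΦ c
    exact ⟨b, π ^ n, fun hd => hhπ (hh.dvd_of_dvd_pow hd), by rw [map_pow]; exact hb⟩)
  refine ⟨G, ⟨h1, fun b' => ?_⟩, h3⟩
  by_cases hb' : b' = 0
  · simp [hb']
  · rw [← h2 b' hb']
    simp [hb']

include hι hfrac in
omit [IsNoetherianRing B] in
/-- every nonzero `f` is `p ^ k * a / b` with `a, b` prime to `p`. -/
theorem exists_rep (p : B) (hp : Prime p) (f : 𝕃) (hf : f ≠ 0) :
    ∃ (k : ℤ) (a b : B), ¬ p ∣ a ∧ ¬ p ∣ b ∧ f * ι b = ι p ^ k * ι a := by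
  have hfrac' : ∀ f : 𝕃, ∃ a b : B, b ≠ 0 ∧ f = ι a / ι b := by
    intro f
    obtain ⟨a, s, hs, h1⟩ := hfrac f
    exact ⟨a, s, hs, by rw [eq_div_iff (PrimeVal.map_ne_zero ι hι hs)]; exact h1⟩
  obtain ⟨k, a, b, ha, hb, h1⟩ := PrimeVal.exists_eq_zpow_mul ι hι hfrac' p hp
    (PrimeVal.hmax_of_wfDvdMonoid p hp) hf
  refine ⟨k, a, b, ha, hb, ?_⟩
  rw [h1, mul_assoc, div_mul_cancel₀ _ (PrimeVal.map_ne_zero ι hι (PrimeVal.ne_zero_of_not_dvd p hb))]

include hι hfrac in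
omit [IsNoetherianRing B] in
theorem IsGen.eq_of_dvd {Q Q' : Place Φ 𝕃} {b b' : B} (h : IsGen ι Q b) (h' : IsGen ι Q' b')
    (hbb' : b ∣ b') : Q = Q' := by
  have hne : ∀ x : B, x ≠ 0 → ι x ≠ 0 := fun x hx h0 => hx (hι (by rw [h0, map_zero]))
  have hb : Prime b := h.prime ι hι hfrac
  have hb' : Prime b' := h'.prime ι hι hfrac
  have hass : Associated b b' := (hb.dvd_prime_iff_associated hb').1 hbb'
  -- elements prime to `b` are units at both places
  have hu : ∀ x : B, ¬ b ∣ x → Q.ord (ι x) = 0 := by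
    intro x hx
    have h1 := Fermat.Agent.S24.FF.ord_nonneg_of_mem Q (h.1 x)
    have h2 : ¬ (0 < Q.ord (ι x)) := fun h3 => hx ((h.2 x).1 (Or.inr h3))
    omega
  have hu' : ∀ x : B, ¬ b ∣ x → Q'.ord (ι x) = 0 := by
    intro x hx
    have h1 := Fermat.Agent.S24.FF.ord_nonneg_of_mem Q' (h'.1 x)
    have h2 : ¬ (0 < Q'.ord (ι x)) := fun h3 => hx (hass.dvd.trans ((h'.2 x).1 (Or.inr h3)))
    omega
  refine Fermat.Agent.S24.FF.eq_of_le fun f hf => ?_
  by_cases hf0 : f = 0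
  · rw [hf0]; exact zero_mem _
  obtain ⟨k, a, c, ha, hc, h1⟩ := exists_rep ι hι hfrac b hb f hf0
  have ha0 : a ≠ 0 := fun h0 => ha (h0 ▸ dvd_zero b)
  have hc0 : c ≠ 0 := fun h0 => hc (h0 ▸ dvd_zero b)
  have hbpos : 0 < Q.ord (ι b) := ((h.2 b).2 dvd_rfl).resolve_left hb.ne_zero
  have hbnn : 0 ≤ Q'.ord (ι b) := Fermat.Agent.S24.FF.ord_nonneg_of_mem Q' (h'.1 b)
  have hz : ι b ^ k ≠ 0 := zpow_ne_zero _ (hne b hb.ne_zero)
  have e1 := congrArg Q.ord h1
  rw [Q.ord_mul hf0 (hne c hc0), Q.ord_mul hz (hne a ha0), hu a ha, hu c hc, Q.ord_zpow] at e1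
  have e2 := congrArg Q'.ord h1
  rw [Q'.ord_mul hf0 (hne c hc0), Q'.ord_mul hz (hne a ha0), hu' a ha, hu' c hc, Q'.ord_zpow] at e2
  have hfnn := Fermat.Agent.S24.FF.ord_nonneg_of_mem Q hf
  have hk : 0 ≤ k := by
    by_contra hk
    have : k * Q.ord (ι b) < 0 := mul_neg_of_neg_of_pos (by omega) hbpos
    omega
  apply Fermat.Agent.S24.FF.mem_of_ord_nonneg
  have : 0 ≤ k * Q'.ord (ι b) := mul_nonneg hk hbnn
  omega

end Fermat.Agent.S26
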