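import Mathlib

/-! # S26 / Trdeg-Curve : a curve through a closed point avoiding a hypersurface.

The two inputs `H0` (`trdeg_quotient_lt`) and `H1` (`trdeg_quotient_add_one_of_mem_minimalPrimes`) are taken
as hypotheses, so that this file only depends on Mathlib. -/

set_option autoImplicit false

namespace Fermat.Agent.S26

namespace TrdegCurve

universe u v

/-- The statement of `trdeg_quotient_lt` for all rings in a universe. -/
def H0 (K : Type u) [Field K] : Prop :=
  ∀ (R : Type v) [CommRing R] [IsDomain R] [Algebra K R],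
    Algebra.trdeg K R < Cardinal.aleph0 → ∀ (q : Ideal R) [q.IsPrime], q ≠ ⊥ →
      Algebra.trdeg K (R ⧸ q) < Algebra.trdeg K R

/-- The statement of `trdeg_quotient_add_one_of_mem_minimalPrimes` for all rings in a universe. -/
def H1 (K : Type u) [Field K] : Prop :=
  ∀ (R : Type v) [CommRing R] [IsDomain R] [Algebra K R] [Algebra.FiniteType K R] (t : R), t ≠ 0 →
    ∀ p ∈ (Ideal.span {t}).minimalPrimes, Algebra.trdeg K (R ⧸ p) + 1 = Algebra.trdeg K R

theorem eq_natCast_of_add_one {c : Cardinal.{v}} {n : ℕ} (h : c + 1 = ((n + 1 : ℕ) : Cardinal.{v})) :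
    c = (n : Cardinal.{v}) := by
  have hlt : c < Cardinal.aleph0 :=
    lt_of_le_of_lt (le_self_add (b := 1)) (h ▸ Cardinal.natCast_lt_aleph0)
  obtain ⟨k, rfl⟩ := Cardinal.lt_aleph0.mp hlt
  have : k + 1 = n + 1 := by exact_mod_cast h
  have hk : k = n := by omega
  rw [hk]

/-- The residue field at a maximal ideal of a f.g. algebra has transcendence degree `0`. -/
theorem trdeg_quotient_maximal {K : Type u} {R : Type v} [Field K] [CommRing R] [Algebra K R]
    [Algebra.FiniteType K R] (m : Ideal R) [hm : m.IsMaximal] : Algebra.trdeg K (R ⧸ m) = 0 := by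
  let _ : Field (R ⧸ m) := Ideal.Quotient.field m
  have hft : Algebra.FiniteType K (R ⧸ m) :=
    Algebra.FiniteType.of_surjective (Ideal.Quotient.mkₐ K m) (Ideal.Quotient.mkₐ_surjective K m)
  have hfin : Module.Finite K (R ⧸ m) := finite_of_finite_type_of_isJacobsonRing K (R ⧸ m)
  have hint : Algebra.IsAlgebraic K (R ⧸ m) := Algebra.IsAlgebraic.of_finite K (R ⧸ m)
  exact trdeg_eq_zero

theorem aux {K : Type u} [Field K] (h0 : H0.{u, v} K) (h1 : H1.{u, v} K) (n : ℕ) :
    ∀ (R : Type v) [CommRing R] [IsDomain R] [Algebra K R] [Algebra.FiniteType K R]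
      (m : Ideal R) [m.IsMaximal] (h : R), h ≠ 0 →
      Algebra.trdeg K R = ((n + 1 : ℕ) : Cardinal.{v}) →
      ∃ p : Ideal R, p.IsPrime ∧ p ≤ m ∧ h ∉ p ∧ Algebra.trdeg K (R ⧸ p) = 1 := by
  induction n with
  | zero =>
    intro R _ _ _ _ m _ h hh hd
    refine ⟨⊥, Ideal.isPrime_bot, bot_le, by simpa using hh, ?_⟩
    rw [(AlgEquiv.quotientBot K R).trdeg_eq, hd]
    simp
  | succ n ih =>
    intro R _ _ _ _ m hm h hh hd
    classical
    have hnoeth : IsNoetherianRing R := Algebra.FiniteType.isNoetherianRing K R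
    have hfinQ : (Ideal.span {h}).minimalPrimes.Finite :=
      Ideal.finite_minimalPrimes_of_isNoetherianRing R _
    -- transcendence degree of the quotient by a minimal prime of a principal ideal
    have hmin : ∀ t : R, t ≠ 0 → ∀ q ∈ (Ideal.span {t}).minimalPrimes,
        Algebra.trdeg K (R ⧸ q) = ((n + 1 : ℕ) : Cardinal.{v}) := by
      intro t ht q hq
      apply eq_natCast_of_add_one
      rw [h1 R t ht q hq, hd]
    have hm0 : Algebra.trdeg K (R ⧸ m) = 0 := trdeg_quotient_maximal m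
    -- prime avoidance
    let s : Finset (Ideal R) := insert ⊥ hfinQ.toFinset
    have hsprime : ∀ i ∈ s, i.IsPrime := by
      intro i hi
      rcases Finset.mem_insert.mp hi with rfl | hi
      · exact Ideal.isPrime_bot
      · exact (hfinQ.mem_toFinset.mp hi).1.1
    have hnot : ¬ ∃ i ∈ s, m ≤ i := by
      rintro ⟨i, hi, hmi⟩
      have hip := hsprime i hi
      have hmi' : m = i := hm.eq_of_le hip.ne_top hmi
      rcases Finset.mem_insert.mp hi with rfl | hi
      · -- `m = ⊥`
        have : Algebra.trdeg K (R ⧸ m) = ((n + 1 + 1 : ℕ) : Cardinal.{v}) := by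
          rw [hmi', (AlgEquiv.quotientBot K R).trdeg_eq, hd]
        rw [hm0] at this
        have h3 : (0 : ℕ) = n + 1 + 1 := by exact_mod_cast this
        omega
      · have := hmin h hh i (hfinQ.mem_toFinset.mp hi)
        rw [← hmi', hm0] at this
        have h3 : (0 : ℕ) = n + 1 := by exact_mod_cast this
        omega
    rw [← Ideal.subset_union_prime (f := fun i : Ideal R => i) ⊥ ⊥
      (fun i hi _ _ => hsprime i hi), Set.not_subset] at hnot
    obtain ⟨t, htm, htU⟩ := hnot
    simp only [Set.mem_iUnion, not_exists] at htU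
    have ht0 : t ≠ 0 := by
      intro h0'
      exact htU ⊥ (Finset.mem_coe.mpr (Finset.mem_insert_self _ _)) (by simp [h0'])
    have htq : ∀ q ∈ (Ideal.span {h}).minimalPrimes, t ∉ q := by
      intro q hq
      exact htU q (Finset.mem_coe.mpr (Finset.mem_insert_of_mem (hfinQ.mem_toFinset.mpr hq)))
    -- a minimal prime of `(t)` below `m`
    obtain ⟨p₁, hp₁, hp₁m⟩ := Ideal.exists_minimalPrimes_le
      (I := Ideal.span {t}) (J := m) ((Ideal.span_singleton_le_iff_mem _).mpr htm)
    have hp₁prime : p₁.IsPrime := hp₁.1.1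
    have htp₁ : t ∈ p₁ := (Ideal.span_singleton_le_iff_mem _).mp hp₁.1.2
    have hdp₁ := hmin t ht0 p₁ hp₁
    have hhp₁ : h ∉ p₁ := by
      intro hmem
      obtain ⟨q, hq, hqp⟩ := Ideal.exists_minimalPrimes_le
        (I := Ideal.span {h}) (J := p₁) ((Ideal.span_singleton_le_iff_mem _).mpr hmem)
      have hqprime : q.IsPrime := hq.1.1
      have hdq := hmin h hh q hq
      have hne : p₁.map (Ideal.Quotient.mkₐ K q) ≠ ⊥ := by
        intro hbot
        have : p₁ ≤ q := by
          intro x hx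
          have h2 : Ideal.Quotient.mkₐ K q x ∈ p₁.map (Ideal.Quotient.mkₐ K q) :=
            Ideal.mem_map_of_mem _ hx
          rw [hbot] at h2
          exact Ideal.Quotient.eq_zero_iff_mem.mp h2
        exact htq q hq (this htp₁)
      have hpr : (p₁.map (Ideal.Quotient.mkₐ K q)).IsPrime := by
        apply Ideal.map_isPrime_of_surjective (Ideal.Quotient.mkₐ_surjective K q)
        intro x hx
        exact hqp (Ideal.Quotient.eq_zero_iff_mem.mp hx)
      have hlt := h0 (R ⧸ q) (hdq ▸ Cardinal.natCast_lt_aleph0) _ hne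
      rw [(DoubleQuot.quotQuotEquivQuotOfLEₐ K hqp).trdeg_eq, hdp₁, hdq] at hlt
      exact lt_irrefl _ hlt
    -- pass to the quotient
    have hker : RingHom.ker (Ideal.Quotient.mkₐ K p₁) ≤ m := by
      intro x hx
      exact hp₁m (Ideal.Quotient.eq_zero_iff_mem.mp hx)
    have hm' : (m.map (Ideal.Quotient.mkₐ K p₁)).IsMaximal :=
      Ideal.IsMaximal.map_of_surjective_of_ker_le (Ideal.Quotient.mkₐ_surjective K p₁) hker
    have hft' : Algebra.FiniteType K (R ⧸ p₁) :=
      Algebra.FiniteType.of_surjective (Ideal.Quotient.mkₐ K p₁)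
        (Ideal.Quotient.mkₐ_surjective K p₁)
    obtain ⟨p', hp'prime, hp'm, hhp', hdp'⟩ := ih (R ⧸ p₁) (m.map (Ideal.Quotient.mkₐ K p₁))
      (Ideal.Quotient.mkₐ K p₁ h) (fun hz => hhp₁ (Ideal.Quotient.eq_zero_iff_mem.mp hz)) hdp₁
    refine ⟨p'.comap (Ideal.Quotient.mkₐ K p₁), Ideal.comap_isPrime _ _, ?_, hhp', ?_⟩
    · intro x hx
      have h2 : Ideal.Quotient.mkₐ K p₁ x ∈ m.map (Ideal.Quotient.mkₐ K p₁) := hp'm hx
      have h3 : x ∈ (m.map (Ideal.Quotient.mkₐ K p₁)).comap (Ideal.Quotient.mkₐ K p₁) := h2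
      rw [Ideal.comap_map_of_surjective _ (Ideal.Quotient.mkₐ_surjective K p₁),
        ← RingHom.ker_eq_comap_bot, sup_of_le_left hker] at h3
      exact h3
    · have hle : p₁ ≤ p'.comap (Ideal.Quotient.mkₐ K p₁) := by
        intro x hx
        have : Ideal.Quotient.mkₐ K p₁ x = 0 := Ideal.Quotient.eq_zero_iff_mem.mpr hx
        rw [Ideal.mem_comap, this]
        exact p'.zero_mem
      rw [← (DoubleQuot.quotQuotEquivQuotOfLEₐ K hle).trdeg_eq,
        Ideal.map_comap_of_surjective _ (Ideal.Quotient.mkₐ_surjective K p₁)]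
      exact hdp'

/-- `exists_prime_le_trdeg_eq_one`, with `H0` and `H1` as hypotheses. -/
theorem main {K : Type u} {R : Type v} [Field K] (h0 : H0.{u, v} K) (h1 : H1.{u, v} K)
    [CommRing R] [IsDomain R]
    [Algebra K R] [Algebra.FiniteType K R] (m : Ideal R) [m.IsMaximal] (h : R) (hh : h ≠ 0)
    (hd : 1 ≤ Algebra.trdeg K R) :
    ∃ p : Ideal R, p.IsPrime ∧ p ≤ m ∧ h ∉ p ∧ Algebra.trdeg K (R ⧸ p) = 1 := by
  obtain ⟨k, hk⟩ := Cardinal.lt_aleph0.mp (trdeg_lt_aleph0_of_finiteType (R := K) (S := R))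
  rw [hk] at hd
  have hk1 : 1 ≤ k := by exact_mod_cast hd
  obtain ⟨n, rfl⟩ : ∃ n, k = n + 1 := ⟨k - 1, by omega⟩
  exact aux h0 h1 n R m h hh hk

end TrdegCurve

end Fermat.Agent.S26
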