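import Mathlib

/-! # S26 : `trdeg (R/q) < trdeg R` for a nonzero prime `q` of a domain of finite transcendence degree. -/

set_option autoImplicit false

namespace Fermat.Agent.S26

/-- TASK S26/Trdeg-H0.  If `ȳ₁..ȳ_d` are algebraically independent in `R/q` with `d = trdeg R`, the lifts
form a transcendence basis; a nonzero `u ∈ q` satisfies `∑ aᵢ(y) uⁱ = 0` with `a₀ ≠ 0`, so `a₀(ȳ) = 0`. -/
theorem trdeg_quotient_lt' {K R : Type*} [Field K] [CommRing R] [IsDomain R] [Algebra K R]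
    (hfin : Algebra.trdeg K R < Cardinal.aleph0) (q : Ideal R) [q.IsPrime] (hq : q ≠ ⊥) :
    Algebra.trdeg K (R ⧸ q) < Algebra.trdeg K R := by
  by_contra hlt
  rw [not_lt] at hlt
  have : Nontrivial (R ⧸ q) := Ideal.Quotient.nontrivial_iff.mpr (Ideal.IsPrime.ne_top inferInstance)
  have : FaithfulSMul K (R ⧸ q) :=
    (faithfulSMul_iff_algebraMap_injective K (R ⧸ q)).mpr (algebraMap K (R ⧸ q)).injective
  obtain ⟨s, hs⟩ := exists_isTranscendenceBasis K (R ⧸ q)
  have hcard : Cardinal.mk s = Algebra.trdeg K (R ⧸ q) := hs.cardinalMk_eq_trdeg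
  -- lifts
  let y : s → R := fun i => (Ideal.Quotient.mk_surjective (I := q) (i : R ⧸ q)).choose
  have hy : ∀ i, Ideal.Quotient.mk q (y i) = (i : R ⧸ q) := fun i =>
    (Ideal.Quotient.mk_surjective (I := q) (i : R ⧸ q)).choose_spec
  have hcomp : (Ideal.Quotient.mkₐ K q) ∘ y = ((↑) : s → R ⧸ q) := by
    funext i; exact hy i
  have hind : AlgebraicIndependent K y := by
    apply AlgebraicIndependent.of_comp (Ideal.Quotient.mkₐ K q)
    rw [hcomp]; exact hs.1
  have hbasis : IsTranscendenceBasis K y :=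
    hind.isTranscendenceBasis_of_trdeg_le hfin (hcard ▸ hlt)
  have halg := hbasis.isAlgebraic
  obtain ⟨u, huq, hu0⟩ := Submodule.exists_mem_ne_zero_of_ne_bot hq
  obtain ⟨a, ha0, hdvd⟩ := (halg.1 u).exists_nonzero_dvd (mem_nonZeroDivisors_of_ne_zero hu0)
  have haq : (a : R) ∈ q := Ideal.mem_of_dvd q hdvd huq
  have hmem : (a : R) ∈ (MvPolynomial.aeval y : MvPolynomial s K →ₐ[K] R).range :=
    (Algebra.adjoin_range_eq_range_aeval K y) ▸ a.2
  obtain ⟨P, hP⟩ := hmem
  have h1 : MvPolynomial.aeval ((↑) : s → R ⧸ q) P = 0 := by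
    have h2 : MvPolynomial.aeval ((Ideal.Quotient.mkₐ K q) ∘ y) P
        = Ideal.Quotient.mkₐ K q (MvPolynomial.aeval y P) :=
      (MvPolynomial.comp_aeval_apply y (Ideal.Quotient.mkₐ K q) P).symm
    have : MvPolynomial.aeval y P = (a : R) := hP
    rw [← hcomp, h2, this]
    exact Ideal.Quotient.eq_zero_iff_mem.mpr haq
  have hP0 : P = 0 := by
    have := hs.1
    rw [algebraicIndependent_iff] at this
    exact this P h1
  apply ha0
  apply Subtype.ext
  rw [← hP, hP0]
  simp

end Fermat.Agent.S26
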