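import Mathlib

/-! # S26 : Krull's Hauptidealsatz in transcendence degree form

`trdeg (R/p) + 1 = trdeg R` for a minimal prime `p` of a nonzero principal ideal of a finitely generated
domain `R` over a field.  Proof: Noether normalisation `P = K[x₁..x_s] ⊆ R`, Mathlib's Hauptidealsatz
(`height p ≤ 1`), going down for `P ⊆ R` (`P` is integrally closed) show that `p ∩ P` is generated by a
prime element `π`; `trdeg P/(π) = s - 1`; `R/p` is integral over `P/(π)`. -/

set_option autoImplicit false

namespace Fermat.Agent.S26.TrdegH1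

open Cardinal Algebra

/-- A proper quotient of a domain of finite transcendence degree has smaller transcendence degree. -/
theorem trdeg_quotient_lt_aux {K R : Type*} [Field K] [CommRing R] [IsDomain R] [Algebra K R]
    (hfin : Algebra.trdeg K R < Cardinal.aleph0) (q : Ideal R) [q.IsPrime] (hq : q ≠ ⊥) :
    Algebra.trdeg K (R ⧸ q) < Algebra.trdeg K R := by
  by_contra hcon
  rw [not_lt] at hcon
  have : Nontrivial (R ⧸ q) := Ideal.Quotient.nontrivial_iff.2 Ideal.IsPrime.ne_top'
  have : FaithfulSMul K (R ⧸ q) :=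
    (faithfulSMul_iff_algebraMap_injective K _).2 (algebraMap K (R ⧸ q)).injective
  obtain ⟨s, hs⟩ := exists_isTranscendenceBasis K (R ⧸ q)
  choose y hy using fun i : s => Ideal.Quotient.mk_surjective (I := q) (i : R ⧸ q)
  have hcomp : (Ideal.Quotient.mkₐ K q) ∘ y = ((↑) : s → R ⧸ q) := by
    funext i
    exact hy i
  have hyind : AlgebraicIndependent K y :=
    AlgebraicIndependent.of_comp (Ideal.Quotient.mkₐ K q) (by rw [hcomp]; exact hs.1)
  have hyB : IsTranscendenceBasis K y :=
    hyind.isTranscendenceBasis_of_trdeg_le hfin (by rw [hs.cardinalMk_eq_trdeg]; exact hcon)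
  have halg := hyB.isAlgebraic
  obtain ⟨u, huq, hu0⟩ := Submodule.exists_mem_ne_zero_of_ne_bot hq
  obtain ⟨r, hr0, hur⟩ := (Algebra.IsAlgebraic.isAlgebraic (R := adjoin K (Set.range y)) u).exists_nonzero_dvd
    (mem_nonZeroDivisors_of_ne_zero hu0)
  have hrq : (r : R) ∈ q := Ideal.mem_of_dvd q hur huq
  have hrmem : (r : R) ∈ (MvPolynomial.aeval y : MvPolynomial s K →ₐ[K] R).range := by
    rw [← Algebra.adjoin_range_eq_range_aeval]
    exact r.2
  obtain ⟨g, hg⟩ := hrmem
  have hg0 : g ≠ 0 := by
    rintro rfl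
    apply hr0
    apply Subtype.ext
    rw [← hg]
    simp
  apply hg0
  apply hs.1
  rw [map_zero, ← hcomp]
  have : MvPolynomial.aeval ((Ideal.Quotient.mkₐ K q) ∘ y) g
      = Ideal.Quotient.mkₐ K q (MvPolynomial.aeval y g) :=
    (MvPolynomial.comp_aeval_apply (f := y) (Ideal.Quotient.mkₐ K q) g).symm
  rw [this]
  change Ideal.Quotient.mkₐ K q ((MvPolynomial.aeval y : MvPolynomial s K →ₐ[K] R) g) = 0
  have hg' : (MvPolynomial.aeval y : MvPolynomial s K →ₐ[K] R) g = (r : R) := hg
  rw [hg']
  exact Ideal.Quotient.eq_zero_iff_mem.2 hrq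

/-- An algebraic extension of domains does not change the transcendence degree. -/
theorem trdeg_eq_natCast_of_isAlgebraic {K S A : Type*} [Field K] [CommRing S] [CommRing A]
    [Algebra K S] [Algebra S A] [Algebra K A] [IsScalarTower K S A] [NoZeroDivisors A]
    [FaithfulSMul K S] [FaithfulSMul S A] [Algebra.IsAlgebraic S A] {n : ℕ}
    (h : Algebra.trdeg K S = n) : Algebra.trdeg K A = n := by
  have h1 := lift_trdeg_add_eq K S A
  rw [trdeg_eq_zero (R := S) (A := A), h] at h1
  simp only [lift_natCast, lift_zero, add_zero] at h1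
  exact (Cardinal.lift_eq_nat_iff.1 h1.symm)

/-- `trdeg K[x₁..x_n]/(π) = n - 1`. -/
theorem trdeg_mvPolynomial_quotient {K : Type*} [Field K] (n : ℕ) (π : MvPolynomial (Fin n) K)
    (hπ : Prime π) :
    ∃ m : ℕ, Algebra.trdeg K (MvPolynomial (Fin n) K ⧸ Ideal.span {π}) = m ∧ m + 1 = n := by
  have hprime : (Ideal.span {π}).IsPrime := (Ideal.span_singleton_prime hπ.ne_zero).2 hπ
  have hne : Ideal.span {π} ≠ ⊥ := by
    rw [Ne, Ideal.span_singleton_eq_bot]
    exact hπ.ne_zero
  have hP : Algebra.trdeg K (MvPolynomial (Fin n) K) = n := by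
    rw [MvPolynomial.trdeg_of_isDomain]
    simp
  have hlt := trdeg_quotient_lt_aux (K := K) (by rw [hP]; exact natCast_lt_aleph0) (Ideal.span {π}) hne
  rw [hP] at hlt
  obtain ⟨m, hm⟩ := Cardinal.lt_aleph0.1 (hlt.trans natCast_lt_aleph0)
  refine ⟨m, hm, ?_⟩
  rw [hm, Nat.cast_lt] at hlt
  -- a variable occurring in `π`
  obtain ⟨j, hj⟩ : ∃ j, π.degreeOf j ≠ 0 := by
    by_contra hcon
    push Not at hcon
    have hv : π.vars = ∅ := by
      rw [Finset.eq_empty_iff_forall_notMem]
      intro i hi
      exact (MvPolynomial.mem_vars_iff_degreeOf_ne_zero.1 hi) (hcon i)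
    rw [MvPolynomial.vars_eq_empty_iff_eq_C] at hv
    have hc : π.coeff 0 ≠ 0 := by
      intro h0
      apply hπ.ne_zero
      rw [hv, h0, map_zero]
    apply hπ.not_isUnit
    rw [hv]
    exact (hc.isUnit).map MvPolynomial.C
  -- the other variables are algebraically independent
  have hind : AlgebraicIndependent K
      (fun i : {i : Fin n // i ≠ j} => Ideal.Quotient.mkₐ K (Ideal.span {π}) (MvPolynomial.X i.1)) := by
    rw [algebraicIndependent_iff_injective_aeval, injective_iff_map_eq_zero]
    intro f hf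
    by_contra hf0
    have h1 : MvPolynomial.aeval
        (fun i : {i : Fin n // i ≠ j} => Ideal.Quotient.mkₐ K (Ideal.span {π}) (MvPolynomial.X i.1)) f
        = Ideal.Quotient.mkₐ K (Ideal.span {π}) (MvPolynomial.rename Subtype.val f) := by
      rw [MvPolynomial.rename_eq_aeval, MvPolynomial.comp_aeval_apply]
      rfl
    rw [h1] at hf
    have h2 : MvPolynomial.rename Subtype.val f ∈ Ideal.span {π} := Ideal.Quotient.eq_zero_iff_mem.1 hf
    rw [Ideal.mem_span_singleton] at h2
    obtain ⟨c, hc⟩ := h2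
    have h3 : MvPolynomial.rename (Subtype.val : {i : Fin n // i ≠ j} → Fin n) f ≠ 0 := by
      intro h0
      apply hf0
      apply MvPolynomial.rename_injective _ Subtype.val_injective
      rw [h0, map_zero]
    have hc0 : c ≠ 0 := by
      rintro rfl
      rw [mul_zero] at hc
      exact h3 hc
    have h4 : (MvPolynomial.rename (Subtype.val : {i : Fin n // i ≠ j} → Fin n) f).degreeOf j = 0 := by
      by_contra h5
      obtain ⟨i, -, hi⟩ := MvPolynomial.mem_vars_rename _ _ (MvPolynomial.mem_vars_iff_degreeOf_ne_zero.2 h5)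
      exact i.2 hi
    rw [hc, MvPolynomial.degreeOf_mul_eq hπ.ne_zero hc0] at h4
    omega
  have hle := hind.lift_cardinalMk_le_trdeg
  rw [hm] at hle
  simp only [lift_natCast, Cardinal.mk_fintype, Fintype.card_subtype_compl, Fintype.card_fin,
    Fintype.card_unique, Nat.cast_le] at hle
  simp at hle
  omega

/-- **Krull's Hauptidealsatz in transcendence degree form.** -/
theorem main {K R : Type*} [Field K] [CommRing R] [IsDomain R]
    [Algebra K R] [Algebra.FiniteType K R] (t : R) (ht : t ≠ 0) (p : Ideal R)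
    (hp : p ∈ (Ideal.span {t}).minimalPrimes) :
    Algebra.trdeg K (R ⧸ p) + 1 = Algebra.trdeg K R := by
  have hpp : p.IsPrime := hp.1.1
  have htp : t ∈ p := hp.1.2 (Ideal.mem_span_singleton_self t)
  have hp0 : p ≠ ⊥ := fun h => ht (by simpa [h] using htp)
  have : IsNoetherianRing R := Algebra.FiniteType.isNoetherianRing K R
  have hht : p.height ≤ 1 :=
    Ideal.height_le_one_of_isPrincipal_of_mem_minimalPrimes (Ideal.span {t}) p hp
  obtain ⟨s, g, hinj, hint⟩ := exists_integral_inj_algHom_of_fg K R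
  let _ : Algebra (MvPolynomial (Fin s) K) R := g.toRingHom.toAlgebra
  have : IsScalarTower K (MvPolynomial (Fin s) K) R :=
    IsScalarTower.of_algebraMap_eq (fun x => (g.commutes x).symm)
  have : FaithfulSMul (MvPolynomial (Fin s) K) R :=
    (faithfulSMul_iff_algebraMap_injective _ _).2 hinj
  have : Algebra.IsIntegral (MvPolynomial (Fin s) K) R := ⟨hint⟩
  have hP : Algebra.trdeg K (MvPolynomial (Fin s) K) = s := by
    rw [MvPolynomial.trdeg_of_isDomain]
    simp
  have hR : Algebra.trdeg K R = s := trdeg_eq_natCast_of_isAlgebraic hP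
  -- the contraction of `p`
  have hu0 : p.under (MvPolynomial (Fin s) K) ≠ ⊥ := fun h => hp0 (Ideal.eq_bot_of_comap_eq_bot h)
  have hup : (p.under (MvPolynomial (Fin s) K)).IsPrime := inferInstance
  obtain ⟨π, hπmem, hπ⟩ := hup.exists_mem_prime_of_ne_bot hu0
  have hprime : (Ideal.span {π}).IsPrime := (Ideal.span_singleton_prime hπ.ne_zero).2 hπ
  have hle : Ideal.span {π} ≤ p.under (MvPolynomial (Fin s) K) :=
    (Ideal.span_singleton_le_iff_mem _).2 hπmem
  have heq : p.under (MvPolynomial (Fin s) K) = Ideal.span {π} := by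
    by_contra hne
    have hlt : Ideal.span {π} < p.under (MvPolynomial (Fin s) K) := lt_of_le_of_ne hle (Ne.symm hne)
    obtain ⟨q, hqp, hqprime, hqover⟩ := Algebra.HasGoingDown.exists_ideal_le_liesOver_of_lt p hlt
    have hq0 : q ≠ ⊥ := by
      intro h
      have h1 : π ∈ q.under (MvPolynomial (Fin s) K) := by
        rw [← hqover.over]
        exact Ideal.mem_span_singleton_self π
      rw [h] at h1
      have h2 : algebraMap (MvPolynomial (Fin s) K) R π = 0 := by simpa using h1
      exact hπ.ne_zero (hinj (by rw [map_zero]; exact h2))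
    have hqne : q ≠ p := by
      rintro rfl
      exact hne hqover.over.symm
    have hqlt : q < p := lt_of_le_of_ne hqp hqne
    have h1 : q.height < p.height := Ideal.height_strict_mono_of_isPrime_of_isPrime hqlt
    have h2 : q.height = 0 := by
      have := lt_of_lt_of_le h1 hht
      exact Order.lt_one_iff.1 this
    exact hq0 (Ideal.height_eq_zero_iff_eq_bot.1 h2)
  have : p.LiesOver (Ideal.span {π}) := ⟨heq.symm⟩
  obtain ⟨m, hm, hms⟩ := trdeg_mvPolynomial_quotient s π hπ
  have : IsDomain (R ⧸ p) := Ideal.Quotient.isDomain p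
  have : Nontrivial (MvPolynomial (Fin s) K ⧸ Ideal.span {π}) :=
    Ideal.Quotient.nontrivial_iff.2 hprime.ne_top
  have := (faithfulSMul_iff_algebraMap_injective K
    (MvPolynomial (Fin s) K ⧸ Ideal.span {π})).2 (algebraMap K _).injective
  have hRp : Algebra.trdeg K (R ⧸ p) = m :=
    trdeg_eq_natCast_of_isAlgebraic (S := MvPolynomial (Fin s) K ⧸ Ideal.span {π}) hm
  rw [hRp, hR, ← hms]
  simp

end Fermat.Agent.S26.TrdegH1
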