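import Mathlib
import Fermat.Agent.S26.Alg.TrdegH0
import Fermat.Agent.S26.Alg.TrdegH1
import Fermat.Agent.S26.Alg.TrdegCurve

/-! # S26 : dimension theory via transcendence degree only (no Krull dimension). -/

set_option autoImplicit false

namespace Fermat.Agent.S26

/-- TASK S26/Trdeg-H0.  If `ȳ₁..ȳ_d` are algebraically independent in `R/q` with `d = trdeg R`, the lifts
form a transcendence basis; a nonzero `u ∈ q` satisfies `∑ aᵢ(y) uⁱ = 0` with `a₀ ≠ 0`, so `a₀(ȳ) = 0`. -/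
theorem trdeg_quotient_lt {K R : Type*} [Field K] [CommRing R] [IsDomain R] [Algebra K R]
    (hfin : Algebra.trdeg K R < Cardinal.aleph0) (q : Ideal R) [q.IsPrime] (hq : q ≠ ⊥) :
    Algebra.trdeg K (R ⧸ q) < Algebra.trdeg K R :=
  trdeg_quotient_lt' hfin q hq

/-- TASK S26/Trdeg-H1 (Krull's Hauptidealsatz in trdeg form; Mumford Red Book I.7 Thm 2).
Localise at an element lying in the other minimal primes of `(t)` but not in `p`, so that `√(t) = p`.
Noether normalisation `P = K[x₁..x_d] ⊆ R` finite; `t₀ = N(t) ∈ P`; `p ∩ P = √(t₀ P) = (p₀)` with `p₀` prime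
(`P` is a UFD, normal); `trdeg P/(p₀) = d - 1`; `R/p` is integral over `P/(p₀)`. -/
theorem trdeg_quotient_add_one_of_mem_minimalPrimes {K R : Type*} [Field K] [CommRing R] [IsDomain R]
    [Algebra K R] [Algebra.FiniteType K R] (t : R) (ht : t ≠ 0) (p : Ideal R)
    (hp : p ∈ (Ideal.span {t}).minimalPrimes) :
    Algebra.trdeg K (R ⧸ p) + 1 = Algebra.trdeg K R :=
  TrdegH1.main t ht p hp

/-- TASK S26/Trdeg-Curve (uses H0, H1, prime avoidance).  Through every closed point of an affine variety of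
dimension `≥ 1` there is a curve not contained in a given hypersurface.  Induction on `trdeg R`: if it is
`≥ 2`, let `q₁..q_r` be the minimal primes of `(h)`; `m ⊄ ⋃ qᵢ` (trdeg `R/qᵢ ≥ 1`, `R/m` algebraic);
pick `t ∈ m \ ⋃ qᵢ`, `t ≠ 0`, and a minimal prime `p₁ ≤ m` of `(t)`; then `h ∉ p₁` by H0; replace `R` by
`R/p₁`. -/
theorem exists_prime_le_trdeg_eq_one {K R : Type*} [Field K] [CommRing R] [IsDomain R]
    [Algebra K R] [Algebra.FiniteType K R] (m : Ideal R) [m.IsMaximal] (h : R) (hh : h ≠ 0)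
    (hd : 1 ≤ Algebra.trdeg K R) :
    ∃ p : Ideal R, p.IsPrime ∧ p ≤ m ∧ h ∉ p ∧ Algebra.trdeg K (R ⧸ p) = 1 :=
  TrdegCurve.main (fun _ _ _ _ hfin q _ hq => trdeg_quotient_lt hfin q hq)
    (fun _ _ _ _ _ t ht p hp => trdeg_quotient_add_one_of_mem_minimalPrimes t ht p hp) m h hh hd

end Fermat.Agent.S26
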