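import Mathlib

/-! # S26 : transcendence degree of a compositum and of a field of fractions. -/

set_option autoImplicit false

universe u

namespace Fermat.Agent.S26

namespace TrdegSup

/-- If every element of the field `L` is a fraction of elements of the domain `A`, they have the same `trdeg`. -/
theorem trdeg_eq_of_fraction {K A L : Type u} [Field K] [CommRing A] [IsDomain A] [Field L]
    [Algebra K A] [Algebra K L] (f : A →ₐ[K] L) (hf : Function.Injective f)
    (hfrac : ∀ x : L, ∃ s t : A, t ≠ 0 ∧ x * f t = f s) :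
    Algebra.trdeg K L = Algebra.trdeg K A := by
  let _ : Algebra A L := f.toRingHom.toAlgebra
  have hmap : ∀ a : A, algebraMap A L a = f a := fun _ => rfl
  have : IsScalarTower K A L := IsScalarTower.of_algebraMap_eq fun c => (f.commutes c).symm
  have : FaithfulSMul K A :=
    (faithfulSMul_iff_algebraMap_injective K A).mpr (algebraMap K A).injective
  have : FaithfulSMul A L := (faithfulSMul_iff_algebraMap_injective A L).mpr hf
  have halg : Algebra.IsAlgebraic A L := by
    refine ⟨fun x => ?_⟩
    obtain ⟨s, t, ht, hx⟩ := hfrac x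
    refine ⟨Polynomial.C t * Polynomial.X - Polynomial.C s, ?_, ?_⟩
    · intro h0
      have := congrArg (fun p => p.coeff 1) h0
      simp at this
      exact ht this
    · simp only [map_sub, map_mul, Polynomial.aeval_C, Polynomial.aeval_X, hmap]
      rw [← hx]; ring
  have h1 := trdeg_add_eq K A (A := L)
  have h0 : Algebra.trdeg A L = 0 := trdeg_eq_zero
  rw [h0, add_zero] at h1
  exact h1.symm

variable {K E : Type u} [Field K] [Field E] [Algebra K E]

/-- subadditivity of the transcendence degree for a compositum -/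
theorem trdeg_le_of_sup_eq_top (L₁ L₂ : IntermediateField K E) (h : L₁ ⊔ L₂ = ⊤) :
    Algebra.trdeg K E ≤ Algebra.trdeg K L₁ + Algebra.trdeg K L₂ := by
  have : FaithfulSMul K L₂ :=
    (faithfulSMul_iff_algebraMap_injective K L₂).mpr (algebraMap K L₂).injective
  have : FaithfulSMul K L₁ :=
    (faithfulSMul_iff_algebraMap_injective K L₁).mpr (algebraMap K L₁).injective
  have : FaithfulSMul L₁ E :=
    (faithfulSMul_iff_algebraMap_injective L₁ E).mpr (algebraMap L₁ E).injective
  obtain ⟨s₂, hs₂⟩ := exists_isTranscendenceBasis K L₂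
  let S : Set E := (fun x : L₂ => (x : E)) '' s₂
  let E₁ : IntermediateField L₁ E := IntermediateField.adjoin L₁ S
  -- everything is algebraic over `E₁`
  have hL1 : ∀ z ∈ L₁, IsAlgebraic E₁ z := by
    intro z hz
    have hz1 : z ∈ E₁ := E₁.algebraMap_mem ⟨z, hz⟩
    exact isAlgebraic_algebraMap (⟨z, hz1⟩ : E₁)
  let A : IntermediateField K E := (algebraicClosure E₁ E).toSubfield.toIntermediateField
    (fun c => mem_algebraicClosure_iff.mpr (hL1 _ (L₁.algebraMap_mem c)))
  have hA1 : L₁ ≤ A := fun z hz => mem_algebraicClosure_iff.mpr (hL1 z hz)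
  have hA2 : L₂ ≤ A := by
    intro z hz
    have halg := hs₂.isAlgebraic_field
    rw [Subtype.range_coe] at halg
    have h1 := halg.1 ⟨z, hz⟩
    -- the inclusion `K(s₂) → E₁`
    have hmem : ∀ w : IntermediateField.adjoin K s₂, ((w : L₂) : E) ∈ E₁ := by
      intro w
      have h2 : ((w : L₂) : E) ∈ (IntermediateField.adjoin K s₂).map L₂.val := ⟨w, w.2, rfl⟩
      rw [IntermediateField.adjoin_map] at h2
      have h3 : IntermediateField.adjoin K (L₂.val '' s₂) ≤ E₁.restrictScalars K := by
        rw [IntermediateField.adjoin_le_iff]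
        intro x hx
        exact IntermediateField.subset_adjoin L₁ S hx
      exact h3 h2
    let f : IntermediateField.adjoin K s₂ →+* E₁ :=
      { toFun := fun w => ⟨((w : L₂) : E), hmem w⟩
        map_one' := rfl
        map_mul' := fun _ _ => rfl
        map_zero' := rfl
        map_add' := fun _ _ => rfl }
    have h4 := h1.ringHom_of_comp_eq f L₂.val.toRingHom f.injective (by ext w; rfl)
    exact mem_algebraicClosure_iff.mpr h4
  have hAtop : A = ⊤ := eq_top_iff.mpr (h ▸ sup_le hA1 hA2)
  have halg : Algebra.IsAlgebraic E₁ E :=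
    ⟨fun z => by
      have hz : z ∈ A := by rw [hAtop]; trivial
      exact mem_algebraicClosure_iff.mp hz⟩
  have halg' : Algebra.IsAlgebraic (Algebra.adjoin L₁ S) E :=
    IntermediateField.isAlgebraic_adjoin_iff_top.mp halg
  have h1 : Algebra.trdeg L₁ E ≤ Cardinal.mk S := Algebra.IsAlgebraic.trdeg_le_cardinalMk L₁ S
  have h2 : Cardinal.mk S ≤ Cardinal.mk s₂ := Cardinal.mk_image_le
  have h3 : Cardinal.mk s₂ = Algebra.trdeg K L₂ := hs₂.cardinalMk_eq_trdeg
  have h4 := trdeg_add_eq K L₁ (A := E)
  rw [← h4]
  exact add_le_add_right (h1.trans (h2.trans h3.le)) _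

end TrdegSup

end Fermat.Agent.S26
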